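import Mathlib
import Fermat.Prelude.Def_ModularCurve_ModularUnit

set_option autoImplicit false

namespace Fermat.Agent.S16

/-- If `l ^ (k + e) ∣ P`, `12 = l ^ e * c` with `c` prime to `l`, then `l ^ k` divides
`P / gcd P 12`. -/
private theorem pow_dvd_div_gcd {l k e c P : ℕ} (hl : l.Prime) (h12 : 12 = l ^ e * c)
    (hc : Nat.Coprime l c) (h : l ^ (k + e) ∣ P) : l ^ k ∣ P / Nat.gcd P 12 := by
  set g := Nat.gcd P 12 with hg
  have hgP : g ∣ P := Nat.gcd_dvd_left _ _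
  have hg12 : g ∣ 12 := Nat.gcd_dvd_right _ _
  have hn : P / g * g = P := Nat.div_mul_cancel hgP
  have h1 : l ^ (k + e) ∣ P / g * 12 := by
    calc l ^ (k + e) ∣ P := h
      _ = P / g * g := hn.symm
      _ ∣ P / g * 12 := Nat.mul_dvd_mul_left _ hg12
  have h2 : l ^ e * l ^ k ∣ l ^ e * (P / g * c) := by
    have : P / g * 12 = l ^ e * (P / g * c) := by rw [h12]; ring
    rw [← this, ← pow_add, add_comm e k]; exact h1
  have h3 : l ^ k ∣ P / g * c :=
    Nat.dvd_of_mul_dvd_mul_left (pow_pos hl.pos e) h2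
  exact (Nat.Coprime.pow_left k hc).dvd_of_dvd_mul_right h3

theorem arith_final (p : ℕ) [Fact p.Prime] (hp : 5 ≤ p) (m : ℕ) (hm : 0 < m)
    (h24 : 24 * (m : ℤ) ∣ (p : ℤ) ^ 2 - 1)
    (h5 : ∀ l : ℕ, l.Prime → 5 ≤ l → l ∣ m → ¬ l ∣ p + 1)
    (h3 : 3 ∣ m → ¬ 9 ∣ p + 1) (h2 : 2 ∣ m → ¬ 8 ∣ p + 1) :
    m ∣ ModularCurve.eisensteinNumerator p := by
  have hpp : p.Prime := Fact.out
  have hN : 24 * m ∣ (p - 1) * (p + 1) := by
    have : ((24 * m : ℕ) : ℤ) ∣ (((p - 1) * (p + 1) : ℕ) : ℤ) := by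
      have h1 : (((p - 1) * (p + 1) : ℕ) : ℤ) = (p : ℤ) ^ 2 - 1 := by
        have : ((p - 1 : ℕ) : ℤ) = (p : ℤ) - 1 := by
          rw [Nat.cast_sub (by omega)]; simp
        push_cast [this]; ring
      rw [h1]; exact_mod_cast h24
    exact_mod_cast this
  unfold ModularCurve.eisensteinNumerator
  rw [Nat.dvd_iff_prime_pow_dvd_dvd]
  intro l k hl hlk
  rcases Nat.eq_zero_or_pos k with rfl | hk
  · simp
  have hlm : l ∣ m := (dvd_pow_self l hk.ne').trans hlk
  have hmul : 24 * l ^ k ∣ (p - 1) * (p + 1) := (Nat.mul_dvd_mul_left 24 hlk).trans hN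
  by_cases hl2 : l = 2
  · subst hl2
    have h8 : ¬ 8 ∣ p + 1 := h2 hlm
    have hodd : p % 2 = 1 := by
      rcases hpp.eq_two_or_odd with h | h
      · omega
      · exact h
    have hpow : 2 ^ (k + 3) ∣ (p - 1) * (p + 1) := by
      refine Dvd.dvd.trans ?_ hmul
      refine ⟨3, ?_⟩
      rw [pow_add]; ring
    have h4 : p % 4 = 1 ∨ p % 4 = 3 := by omega
    rcases h4 with h4 | h4
    · -- p + 1 = 2 * t, t odd
      obtain ⟨t, ht⟩ : ∃ t, p + 1 = 2 * t := ⟨(p + 1) / 2, by omega⟩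
      have htodd : t % 2 = 1 := by omega
      have h' : 2 * 2 ^ (k + 2) ∣ 2 * ((p - 1) * t) := by
        have e1 : 2 * 2 ^ (k + 2) = 2 ^ (k + 3) := by ring
        have e2 : 2 * ((p - 1) * t) = (p - 1) * (p + 1) := by rw [ht]; ring
        rw [e1, e2]; exact hpow
      have h'' : 2 ^ (k + 2) ∣ (p - 1) * t := Nat.dvd_of_mul_dvd_mul_left (by norm_num) h'
      have hcop : Nat.Coprime (2 ^ (k + 2)) t := by
        apply Nat.Coprime.pow_left
        rw [Nat.Prime.coprime_iff_not_dvd Nat.prime_two]; omega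
      have h''' : 2 ^ (k + 2) ∣ p - 1 := hcop.dvd_of_dvd_mul_right h''
      exact pow_dvd_div_gcd (e := 2) (c := 3) Nat.prime_two (by norm_num) (by norm_num) h'''
    · exfalso
      obtain ⟨t, ht⟩ : ∃ t, p - 1 = 2 * t := ⟨(p - 1) / 2, by omega⟩
      have htodd : t % 2 = 1 := by omega
      have h' : 2 * 2 ^ (k + 2) ∣ 2 * (t * (p + 1)) := by
        have e1 : 2 * 2 ^ (k + 2) = 2 ^ (k + 3) := by ring
        have e2 : 2 * (t * (p + 1)) = (p - 1) * (p + 1) := by rw [ht]; ring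
        rw [e1, e2]; exact hpow
      have h'' : 2 ^ (k + 2) ∣ t * (p + 1) := Nat.dvd_of_mul_dvd_mul_left (by norm_num) h'
      have hcop : Nat.Coprime (2 ^ (k + 2)) t := by
        apply Nat.Coprime.pow_left
        rw [Nat.Prime.coprime_iff_not_dvd Nat.prime_two]; omega
      have h''' : 2 ^ (k + 2) ∣ p + 1 := hcop.dvd_of_dvd_mul_left h''
      apply h8
      refine Dvd.dvd.trans ?_ h'''
      exact (show (8 : ℕ) = 2 ^ 3 by norm_num) ▸ pow_dvd_pow 2 (by omega)
  by_cases hl3 : l = 3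
  · subst hl3
    have h9 : ¬ 9 ∣ p + 1 := h3 hlm
    have hp3 : ¬ 3 ∣ p := by
      intro h
      have := (Nat.prime_dvd_prime_iff_eq Nat.prime_three hpp).1 h
      omega
    have hpow : 3 ^ (k + 1) ∣ (p - 1) * (p + 1) := by
      refine Dvd.dvd.trans ?_ hmul
      refine ⟨8, ?_⟩
      rw [pow_add]; ring
    have h4 : p % 3 = 1 ∨ p % 3 = 2 := by omega
    rcases h4 with h4 | h4
    · have hcop : Nat.Coprime (3 ^ (k + 1)) (p + 1) := by
        apply Nat.Coprime.pow_left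
        rw [Nat.Prime.coprime_iff_not_dvd Nat.prime_three]; omega
      have h''' : 3 ^ (k + 1) ∣ p - 1 := hcop.dvd_of_dvd_mul_right hpow
      exact pow_dvd_div_gcd (e := 1) (c := 4) Nat.prime_three (by norm_num) (by norm_num) h'''
    · exfalso
      have hcop : Nat.Coprime (3 ^ (k + 1)) (p - 1) := by
        apply Nat.Coprime.pow_left
        rw [Nat.Prime.coprime_iff_not_dvd Nat.prime_three]; omega
      have h''' : 3 ^ (k + 1) ∣ p + 1 := hcop.dvd_of_dvd_mul_left hpow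
      apply h9
      refine Dvd.dvd.trans ?_ h'''
      exact (show (9 : ℕ) = 3 ^ 2 by norm_num) ▸ pow_dvd_pow 3 (by omega)
  · have hl5 : 5 ≤ l := by
      have h2' := hl.two_le
      by_contra hcon
      have : l = 4 := by omega
      subst this
      exact absurd hl (by norm_num)
    have hnd : ¬ l ∣ p + 1 := h5 l hl hl5 hlm
    have hpow : l ^ k ∣ (p - 1) * (p + 1) := (Dvd.intro_left 24 rfl).trans hmul
    have hcop : Nat.Coprime (l ^ k) (p + 1) := by
      apply Nat.Coprime.pow_left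
      rwa [Nat.Prime.coprime_iff_not_dvd hl]
    have h''' : l ^ (k + 0) ∣ p - 1 := hcop.dvd_of_dvd_mul_right hpow
    refine pow_dvd_div_gcd (e := 0) (c := 12) hl (by norm_num) ?_ h'''
    rw [Nat.Prime.coprime_iff_not_dvd hl]
    intro h
    have h12 : l ∣ 2 ^ 2 * 3 := by simpa using h
    rcases (Nat.Prime.dvd_mul hl).1 h12 with h' | h'
    · exact hl2 ((Nat.prime_dvd_prime_iff_eq hl Nat.prime_two).1 (hl.dvd_of_dvd_pow h'))
    · exact hl3 ((Nat.prime_dvd_prime_iff_eq hl Nat.prime_three).1 h')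

end Fermat.Agent.S16
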