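import Mathlib

/-!
# S16, upper bound: two elementary valuation computations (`val_odd`, `val_two`)
-/

set_option autoImplicit false

namespace Fermat.Agent.S16

open Finset

/-- if `q ^ v` exactly divides `x - 1` and `q` does not divide the geometric sum, then `q ^ v`
exactly divides `x ^ N - 1`. -/
theorem exact_dvd_pow_sub_one {q : ℤ} (hq : Prime q) (x : ℤ) (v N : ℕ) (h1 : q ^ v ∣ x - 1)
    (h2 : ¬ q ^ (v + 1) ∣ x - 1) (hS : ¬ q ∣ ∑ i ∈ range N, x ^ i) :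
    q ^ v ∣ x ^ N - 1 ∧ ¬ q ^ (v + 1) ∣ x ^ N - 1 := by
  have hgeo : (∑ i ∈ range N, x ^ i) * (x - 1) = x ^ N - 1 := geom_sum_mul x N
  refine ⟨hgeo ▸ Dvd.dvd.mul_left h1 _, fun h ↦ ?_⟩
  obtain ⟨c, hc⟩ := h1
  rw [← hgeo, hc, pow_succ, mul_left_comm] at h
  have hq0 : q ^ v ≠ 0 := pow_ne_zero _ hq.ne_zero
  have h3 : q ∣ (∑ i ∈ range N, x ^ i) * c := (mul_dvd_mul_iff_left hq0).mp h
  rcases hq.dvd_or_dvd h3 with h4 | h4
  · exact hS h4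
  · apply h2
    rw [hc, pow_succ]
    exact mul_dvd_mul_left _ h4

/-- the geometric sum is congruent to the number of terms modulo `x - 1`. -/
theorem sub_one_dvd_geom_sum_sub (x : ℤ) (N : ℕ) : x - 1 ∣ (∑ i ∈ range N, x ^ i) - N := by
  have : (∑ i ∈ range N, x ^ i) - N = ∑ i ∈ range N, (x ^ i - 1) := by
    rw [sum_sub_distrib]
    simp
  rw [this]
  refine dvd_sum fun i _ ↦ ?_
  simpa using sub_dvd_pow_sub_pow x 1 i

section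
variable (p : ℕ) [Fact p.Prime]

theorem val_odd (l : ℕ) [Fact l.Prime] (hl : l ≠ 2) (v : ℕ) (hv1 : (l : ℤ) ^ v ∣ (p : ℤ) + 1)
    (hv2 : ¬ (l : ℤ) ^ (v + 1) ∣ (p : ℤ) + 1) (hv : 1 ≤ v) :
    (l : ℤ) ^ v ∣ (p : ℤ) ^ (l ^ v - 1) + (-1) ∧ ¬ (l : ℤ) ^ (v + 1) ∣ (p : ℤ) ^ (l ^ v - 1) + (-1) := by
  have hlp : l.Prime := Fact.out
  have hq : Prime (l : ℤ) := Nat.prime_iff_prime_int.mp hlp
  have hodd : Odd (l ^ v) := (hlp.odd_of_ne_two hl).pow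
  have heven : Even (l ^ v - 1) := by
    obtain ⟨k, hk⟩ := hodd
    exact ⟨k, by omega⟩
  have hx : (-(p : ℤ)) - 1 = -((p : ℤ) + 1) := by ring
  have h1 : (l : ℤ) ^ v ∣ (-(p : ℤ)) - 1 := by rw [hx]; exact (dvd_neg).mpr hv1
  have h2 : ¬ (l : ℤ) ^ (v + 1) ∣ (-(p : ℤ)) - 1 := by rw [hx, dvd_neg]; exact hv2
  have hl1 : (l : ℤ) ∣ (-(p : ℤ)) - 1 := (dvd_pow_self (l : ℤ) (by omega)).trans h1
  have hS : ¬ (l : ℤ) ∣ ∑ i ∈ range (l ^ v - 1), (-(p : ℤ)) ^ i := by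
    intro h
    have h3 := hl1.trans (sub_one_dvd_geom_sum_sub (-(p : ℤ)) (l ^ v - 1))
    have h4 : (l : ℤ) ∣ ((l ^ v - 1 : ℕ) : ℤ) := by
      have := dvd_sub h h3
      simpa using this
    have hpos : 1 ≤ l ^ v := Nat.one_le_pow _ _ hlp.pos
    rw [Nat.cast_sub hpos] at h4
    push_cast at h4
    have h5 : (l : ℤ) ∣ (l : ℤ) ^ v := dvd_pow_self _ (by omega)
    have h6 : (l : ℤ) ∣ 1 := by
      have := dvd_sub h5 h4
      simpa using this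
    exact hq.not_isUnit (isUnit_of_dvd_one h6)
  have := exact_dvd_pow_sub_one hq (-(p : ℤ)) v (l ^ v - 1) h1 h2 hS
  rwa [heven.neg_pow, sub_eq_add_neg] at this

theorem val_two (v : ℕ) (hv1 : (2 : ℤ) ^ v ∣ (p : ℤ) + 1) (hv2 : ¬ (2 : ℤ) ^ (v + 1) ∣ (p : ℤ) + 1) :
    (2 : ℤ) ^ v ∣ (p : ℤ) ^ (4 * 2 ^ v - 1) + 1 ∧ ¬ (2 : ℤ) ^ (v + 1) ∣ (p : ℤ) ^ (4 * 2 ^ v - 1) + 1 := by
  have hq : Prime (2 : ℤ) := Int.prime_two
  have hpos : 1 ≤ 2 ^ v := Nat.one_le_pow _ _ (by norm_num)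
  obtain ⟨n, hn⟩ : ∃ n, 4 * 2 ^ v - 1 = 2 * n + 1 := ⟨2 * 2 ^ v - 1, by omega⟩
  have hoddN : Odd (4 * 2 ^ v - 1) := ⟨n, hn⟩
  have hx : (-(p : ℤ)) - 1 = -((p : ℤ) + 1) := by ring
  have h1 : (2 : ℤ) ^ v ∣ (-(p : ℤ)) - 1 := by rw [hx]; exact (dvd_neg).mpr hv1
  have h2 : ¬ (2 : ℤ) ^ (v + 1) ∣ (-(p : ℤ)) - 1 := by rw [hx, dvd_neg]; exact hv2
  have hS : ¬ (2 : ℤ) ∣ ∑ i ∈ range (4 * 2 ^ v - 1), (-(p : ℤ)) ^ i := by
    intro h
    rcases Int.even_or_odd (p : ℤ) with hp | hp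
    · -- `p` even: the sum is `1 +` even terms
      rw [hn, sum_range_succ'] at h
      have h3 : (2 : ℤ) ∣ ∑ i ∈ range (2 * n), (-(p : ℤ)) ^ (i + 1) := by
        refine dvd_sum fun i _ ↦ ?_
        exact Dvd.dvd.trans ((dvd_neg).mpr hp.two_dvd) (dvd_pow_self _ (by omega))
      have h4 : (2 : ℤ) ∣ 1 := by
        have := dvd_sub h h3
        simpa using this
      exact hq.not_isUnit (isUnit_of_dvd_one h4)
    · -- `p` odd: the sum is congruent to the odd number of terms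
      have h21 : (2 : ℤ) ∣ (-(p : ℤ)) - 1 := by
        rw [hx, dvd_neg]
        exact (hp.add_odd odd_one).two_dvd
      have h3 := h21.trans (sub_one_dvd_geom_sum_sub (-(p : ℤ)) (4 * 2 ^ v - 1))
      have h4 : (2 : ℤ) ∣ ((4 * 2 ^ v - 1 : ℕ) : ℤ) := by
        have := dvd_sub h h3
        simpa using this
      rw [hn] at h4
      push_cast at h4
      omega
  have := exact_dvd_pow_sub_one hq (-(p : ℤ)) v (4 * 2 ^ v - 1) h1 h2 hS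
  rw [hoddN.neg_pow] at this
  have hy : -(p : ℤ) ^ (4 * 2 ^ v - 1) - 1 = -((p : ℤ) ^ (4 * 2 ^ v - 1) + 1) := by ring
  rwa [hy, dvd_neg, dvd_neg] at this

end

end Fermat.Agent.S16
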