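import Fermat.Agent.S16.Interface
import Fermat.Agent.S16.Formal

/-!
# S16, upper bound: the engine

A level one form of weight `w * ℓ ^ v`, `w < 12`, congruent to `κ V_{ℓ^v} ζ` modulo `ℓ ^ (v + 1)`
contradicts the integral Sturm bound.
-/

set_option autoImplicit false

noncomputable section

namespace Fermat.Agent.S16

open UpperHalfPlane ModularForm CongruenceSubgroup PowerSeries
open scoped MatrixGroups ModularForm Manifold

theorem engine (p : ℕ) [Fact p.Prime] (hL : LevelOneCalc) (l : ℕ) [Fact l.Prime] (v w N : ℕ)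
    (hw : w < 12) (ε : ℤ)
    (X X' ζ : PowerSeries ℤ)
    (hlev : IsLevelOne ((l ^ v : ℕ) * (w : ℤ))
      (toC ((p : PowerSeries ℤ) ^ N * X ^ (l ^ v) + C ε * psU p (X' ^ (l ^ v)))))
    (hX : ((l : ℤ) : PowerSeries ℤ) ∣ X - ζ) (hX' : ((l : ℤ) : PowerSeries ℤ) ∣ X' - psV p ζ)
    (hκ1 : (l : ℤ) ^ v ∣ (p : ℤ) ^ N + ε) (hκ2 : ¬ (l : ℤ) ^ (v + 1) ∣ (p : ℤ) ^ N + ε)
    (hζ0 : coeff 0 ζ = 0) (hζ1 : ¬ (l : ℤ) ∣ coeff 1 ζ) : False := by
  have hp0 : p ≠ 0 := (Fact.out : p.Prime).ne_zero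
  have hlprime : Prime (l : ℤ) := Nat.prime_iff_prime_int.1 (Fact.out : l.Prime)
  have hl0 : (l : ℤ) ≠ 0 := hlprime.ne_zero
  set r : ℕ := l ^ v with hr
  have hrpos : 0 < r := pow_pos (Fact.out : l.Prime).pos v
  set Y : PowerSeries ℤ := (p : PowerSeries ℤ) ^ N * X ^ r + C ε * psU p (X' ^ r) with hY
  obtain ⟨κ', hκ'⟩ := hκ1
  -- step 1, 2
  have h1 : (((l : ℤ) ^ (v + 1) : ℤ) : PowerSeries ℤ) ∣ X ^ r - ζ ^ r := pow_lift l hX v
  have h2 : (((l : ℤ) ^ (v + 1) : ℤ) : PowerSeries ℤ) ∣ psU p (X' ^ r) - ζ ^ r := by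
    have h := dvd_psU p (pow_lift l hX' v)
    rwa [psU_sub, ← psV_pow hp0, psU_psV hp0] at h
  -- step 4
  have h4 : (((l : ℤ) ^ (v + 1) : ℤ) : PowerSeries ℤ) ∣
      (((l : ℤ) ^ v : ℤ) : PowerSeries ℤ) * (ζ ^ r - psV r ζ) := by
    have h := frobenius_dvd l ζ v
    have h' := mul_dvd_mul_left (((l : ℤ) ^ v : ℤ) : PowerSeries ℤ) h
    have e : (((l : ℤ) ^ (v + 1) : ℤ) : PowerSeries ℤ)
        = (((l : ℤ) ^ v : ℤ) : PowerSeries ℤ) * ((l : ℤ) : PowerSeries ℤ) := by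
      rw [pow_succ]; push_cast; ring
    rw [e]
    exact h'
  -- step 5
  have h5 : (((l : ℤ) ^ (v + 1) : ℤ) : PowerSeries ℤ) ∣
      Y - (((p : ℤ) ^ N + ε : ℤ) : PowerSeries ℤ) * psV r ζ := by
    have e : Y - (((p : ℤ) ^ N + ε : ℤ) : PowerSeries ℤ) * psV r ζ
        = (p : PowerSeries ℤ) ^ N * (X ^ r - ζ ^ r) + C ε * (psU p (X' ^ r) - ζ ^ r)
          + ((κ' : ℤ) : PowerSeries ℤ) * ((((l : ℤ) ^ v : ℤ) : PowerSeries ℤ) * (ζ ^ r - psV r ζ)) := by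
      have e1 : (((p : ℤ) ^ N + ε : ℤ) : PowerSeries ℤ) = (p : PowerSeries ℤ) ^ N + C ε := by
        push_cast
        simp
      have e2 : (p : PowerSeries ℤ) ^ N + C ε
          = ((κ' : ℤ) : PowerSeries ℤ) * (((l : ℤ) ^ v : ℤ) : PowerSeries ℤ) := by
        rw [← e1, hκ']; push_cast; ring
      rw [e1, hY]
      linear_combination (ζ ^ r - psV r ζ) * e2
    rw [e]
    exact dvd_add (dvd_add (Dvd.dvd.mul_left h1 _) (Dvd.dvd.mul_left h2 _)) (Dvd.dvd.mul_left h4 _)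
  rw [intCast_dvd_iff] at h5
  have hcoeff : ∀ n, coeff n (Y - (((p : ℤ) ^ N + ε : ℤ) : PowerSeries ℤ) * psV r ζ)
      = coeff n Y - ((p : ℤ) ^ N + ε) * coeff n (psV r ζ) := by
    intro n
    have e1 : (((p : ℤ) ^ N + ε : ℤ) : PowerSeries ℤ) = C ((p : ℤ) ^ N + ε) := by simp
    rw [map_sub, e1, coeff_C_mul]
  -- small coefficients
  have hsmall : ∀ n, n < r → (l : ℤ) ^ (v + 1) ∣ coeff n Y := by
    intro n hn
    have h := h5 n
    rw [hcoeff, coeff_psV] at h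
    have hz : (if r ∣ n then coeff (n / r) ζ else 0) = 0 := by
      split_ifs with hd
      · have hn0 : n = 0 := Nat.eq_zero_of_dvd_of_lt hd hn
        rw [hn0, Nat.zero_div, hζ0]
      · rfl
    rwa [hz, mul_zero, sub_zero] at h
  -- Sturm
  let I : AddSubgroup ℂ := AddSubgroup.zmultiples ((l : ℂ) ^ (v + 1))
  have hI : ∀ a : ℤ, (a : ℂ) ∈ I ↔ (l : ℤ) ^ (v + 1) ∣ a := by
    intro a
    rw [AddSubgroup.mem_zmultiples_iff]
    constructor
    · rintro ⟨k, hk⟩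
      refine ⟨k, ?_⟩
      have : ((a : ℤ) : ℂ) = (((l : ℤ) ^ (v + 1) * k : ℤ) : ℂ) := by
        rw [← hk]; push_cast; rw [zsmul_eq_mul]; ring
      exact_mod_cast this
    · rintro ⟨k, rfl⟩
      refine ⟨k, ?_⟩
      push_cast; rw [zsmul_eq_mul]; ring
  have hlev' : IsLevelOne ((r * w : ℕ) : ℤ) (toC Y) := by
    have : ((r * w : ℕ) : ℤ) = (r : ℤ) * (w : ℤ) := by push_cast; ring
    rw [this]; exact hlev
  have hst := hL.sturm I (r * w) hlev' (by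
    intro n hn
    have hn' : n < r := by
      have : r * w / 12 < r := by
        rw [Nat.div_lt_iff_lt_mul (by norm_num)]
        exact Nat.mul_lt_mul_of_pos_left hw hrpos
      omega
    have : coeff n (toC Y) = ((coeff n Y : ℤ) : ℂ) := by simp [toC]
    rw [this, hI]
    exact hsmall n hn') r
  have hcr : coeff r (toC Y) = ((coeff r Y : ℤ) : ℂ) := by simp [toC]
  rw [hcr, hI] at hst
  have h6 := h5 r
  rw [hcoeff, coeff_psV, if_pos (dvd_refl r), Nat.div_self hrpos] at h6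
  have h7 : (l : ℤ) ^ (v + 1) ∣ ((p : ℤ) ^ N + ε) * coeff 1 ζ := by
    have := dvd_sub hst h6
    simpa using this
  rw [hκ', pow_succ, mul_assoc] at h7
  have h8 : (l : ℤ) ∣ κ' * coeff 1 ζ :=
    (mul_dvd_mul_iff_left (pow_ne_zero v hl0)).1 h7
  rcases hlprime.dvd_or_dvd h8 with h9 | h9
  · apply hκ2
    rw [hκ', pow_succ]
    exact mul_dvd_mul_left _ h9
  · exact hζ1 h9

end Fermat.Agent.S16
end
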