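import Fermat.Agent.S16.Interface

/-!
# S16, upper bound: two lemmas on Fricke pairs

`levelOne_of_pair` and `isPair_D`, plus convenience lemmas (`PairCalc.neg`, `PairCalc.sub`,
`IsPair.cast`, `IsLevelOne.cast`).  The few formal facts on `psU` which are needed are proved
locally in the namespace `PairLemmas`, so that this file depends on the interface only.
-/

set_option autoImplicit false

noncomputable section

namespace Fermat.Agent.S16

open UpperHalfPlane ModularForm CongruenceSubgroup PowerSeries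
open scoped MatrixGroups ModularForm Manifold

namespace PairLemmas

variable {R S : Type*} [CommRing R] [CommRing S]

theorem psU_smul_aux (p : ℕ) (c : R) (A : PowerSeries R) : psU p (c • A) = c • psU p A := by
  ext n; simp [psU]

theorem psU_sub_aux (p : ℕ) (A B : PowerSeries R) : psU p (A - B) = psU p A - psU p B := by
  ext n; simp [psU]

theorem psU_C_mul_aux (p : ℕ) (c : R) (A : PowerSeries R) : psU p (C c * A) = C c * psU p A := by
  ext n; simp [psU]

theorem psU_C_aux {p : ℕ} (hp : p ≠ 0) (c : R) : psU p (C c : PowerSeries R) = C c := by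
  ext n
  simp [psU, PowerSeries.coeff_C, hp]

theorem map_psU_aux (f : R →+* S) (p : ℕ) (A : PowerSeries R) :
    PowerSeries.map f (psU p A) = psU p (PowerSeries.map f A) := by
  ext n; simp [psU]

end PairLemmas

open PairLemmas

theorem PairCalc.neg {p : ℕ} [NeZero p] (hP : PairCalc p) {k : ℤ} {A B : PowerSeries ℂ}
    (h : IsPair p k A B) : IsPair p k (-A) (-B) := by
  have := hP.smul (-1) h
  simpa using this

theorem PairCalc.sub {p : ℕ} [NeZero p] (hP : PairCalc p) {k : ℤ} {A B A' B' : PowerSeries ℂ}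
    (h : IsPair p k A B) (h' : IsPair p k A' B') : IsPair p k (A - A') (B - B') := by
  have := hP.add h (PairCalc.neg hP h')
  simpa [sub_eq_add_neg] using this

theorem IsPair.cast {p : ℕ} [NeZero p] {k k' : ℤ} {A B : PowerSeries ℂ} (hk : k = k')
    (h : IsPair p k A B) : IsPair p k' A B := hk ▸ h

theorem IsLevelOne.cast {k k' : ℤ} {A : PowerSeries ℂ} (hk : k = k')
    (h : IsLevelOne k A) : IsLevelOne k' A := hk ▸ h

variable (p : ℕ) [Fact p.Prime]

theorem levelOne_of_pair (hP : PairCalc p) (hL : LevelOneCalc) {w : ℤ} {X X' : PowerSeries ℤ} {a b : ℂ}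
    (h : IsPair p w (a • toC X) (b • toC X')) (ha : a ≠ 0) (r N : ℕ) (ε : ℤ)
    (hrel : (p : ℂ) ^ (N + 1) * b ^ r = ε * a ^ r) :
    IsLevelOne (r * w) (toC ((p : PowerSeries ℤ) ^ N * X ^ r + C ε * psU p (X' ^ r))) := by
  have h1 := hL.smul ((p : ℂ) ^ N / a ^ r) (hP.trace (hP.pow r h))
  convert h1 using 1
  have har : a ^ r ≠ 0 := pow_ne_zero _ ha
  rw [smul_pow, smul_pow, psU_smul_aux, smul_add, smul_smul, smul_smul, smul_smul]
  have e1 : (p : ℂ) ^ N / a ^ r * a ^ r = (p : ℂ) ^ N := by field_simp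
  have e2 : (p : ℂ) ^ N / a ^ r * ((p : ℂ) * b ^ r) = (ε : ℂ) := by
    have : (p : ℂ) ^ N * ((p : ℂ) * b ^ r) = ε * a ^ r := by rw [← hrel]; ring
    rw [div_mul_eq_mul_div, this]; field_simp
  rw [e1, mul_assoc, e2]
  rw [map_add, map_mul, map_mul, map_pow, map_pow, map_psU_aux, map_pow, map_natCast]
  rw [PowerSeries.smul_eq_C_mul, PowerSeries.smul_eq_C_mul]
  simp

/-- the pair attached to `D = 24 (E - f)`, `f = δ + m φ₀`. -/
theorem isPair_D (hP : PairCalc p) (f : CuspForm (Gamma0 p) 2) (m : ℤ) (φ₀ : PowerSeries ℤ)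
    (hf : qExpansion 1 f = toC (deltaZ p + C m * φ₀)) :
    IsPair p 2 (toC (C ((p : ℤ) - 1) - C (24 * m) * φ₀))
      ((-(p : ℂ)⁻¹) • toC (C ((p : ℤ) - 1) - C (24 * m) * psU p φ₀)) := by
  obtain ⟨BE, hE⟩ := hP.eis
  obtain ⟨Bf, hBf⟩ := hP.cusp f
  have h1 := hP.smul 24 (PairCalc.sub hP hE hBf)
  have hA : (24 : ℂ) • (EisQ p - qExpansion 1 f) = toC (C ((p : ℤ) - 1) - C (24 * m) * φ₀) := by
    rw [hf, EisQ, PowerSeries.smul_eq_C_mul]
    simp only [map_add, map_sub, map_mul, PowerSeries.map_C]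
    have : (C (24 : ℂ) : PowerSeries ℂ) * C (((p : ℂ) - 1) / 24) = C (p : ℂ) - C 1 := by
      rw [← map_mul, ← map_sub]; congr 1; ring
    simp only [eq_intCast, Int.cast_natCast, Int.cast_one, Int.cast_ofNat]
    linear_combination this
  rw [hA] at h1
  have h2 := hP.weightTwo h1
  rw [h2] at h1
  convert h1 using 2
  rw [← map_psU_aux, psU_sub_aux, psU_C_mul_aux, psU_C_aux (Fact.out : p.Prime).ne_zero]

end Fermat.Agent.S16

end
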