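import Fermat.Agent.S16.Interface
import Fermat.Agent.S16.Formal
import Fermat.Agent.S16.UB.PairLemmas
import Fermat.Agent.S16.UB.Engine
import Fermat.Agent.S16.UB.Arith

/-!
# S16, upper bound: the residual case `ℓ = 3`, `9 ∣ p + 1`
-/

set_option autoImplicit false

noncomputable section

namespace Fermat.Agent.S16

open UpperHalfPlane ModularForm CongruenceSubgroup PowerSeries
open scoped MatrixGroups ModularForm Manifold

variable (p : ℕ) [Fact p.Prime]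

theorem case_three (hP : PairCalc p) (hL : LevelOneCalc) (_hp : 5 ≤ p) (h9 : 9 ∣ p + 1)
    (f : CuspForm (Gamma0 p) 2) (φ₀ : PowerSeries ℤ)
    (hf : qExpansion 1 f = toC (deltaZ p + C 3 * φ₀)) : False := by
  haveI : Fact (Nat.Prime 3) := ⟨Nat.prime_three⟩
  have hp : p.Prime := Fact.out
  have hp0 : p ≠ 0 := hp.ne_zero
  have hpC : (p : ℂ) ≠ 0 := Nat.cast_ne_zero.2 hp0
  obtain ⟨t, ht⟩ : (9 : ℤ) ∣ (p : ℤ) + 1 := by exact_mod_cast h9
  obtain ⟨c, hc⟩ : ∃ c : ℤ, c = (p : ℤ) - 1 := ⟨_, rfl⟩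
  obtain ⟨D, hDdef⟩ : ∃ D : PowerSeries ℤ, D = C c - C (24 * 3) * φ₀ := ⟨_, rfl⟩
  obtain ⟨u, hudef⟩ : ∃ u : PowerSeries ℤ, u = C c - C (24 * 3) * psU p φ₀ := ⟨_, rfl⟩
  obtain ⟨X, hXdef⟩ : ∃ X : PowerSeries ℤ,
    X = C (80 * c) * sigZ 3 + C (168 * c) * sigZ 5 - C 24 * φ₀ * E4Z := ⟨_, rfl⟩
  obtain ⟨X', hX'def⟩ : ∃ X' : PowerSeries ℤ,
    X' = C (3 * t * c) + C (80 * c) * psV p (sigZ 3) - C (168 * (p : ℤ) * c) * psV p (sigZ 5)
      - C 24 * psU p φ₀ * psV p E4Z := ⟨_, rfl⟩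
  obtain ⟨ζ, hζdef⟩ : ∃ ζ : PowerSeries ℤ, ζ = C (-c) * sigZ 3 := ⟨_, rfl⟩
  have hV4 : psV p E4Z = 1 + C 240 * psV p (sigZ 3) := by
    have h : (240 : PowerSeries ℤ) = C 240 := by simp
    rw [E4Z, h, psV_add, psV_one hp0, psV_mul hp0, psV_C hp0]
  have hV6 : psV p E6Z = 1 - C 504 * psV p (sigZ 5) := by
    have h : (504 : PowerSeries ℤ) = C 504 := by simp
    rw [E6Z, h, psV_sub, psV_one hp0, psV_mul hp0, psV_C hp0]
  have h3X : C 3 * X = D * E4Z - C c * E6Z := by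
    have h4 : (240 : PowerSeries ℤ) = C 240 := by simp
    have h6 : (504 : PowerSeries ℤ) = C 504 := by simp
    rw [hXdef, hDdef, E4Z, E6Z, h4, h6]
    simp only [map_mul, map_ofNat]
    ring
  have h3X' : C 3 * X' = u * psV p E4Z + C ((p : ℤ) * c) * psV p E6Z := by
    have e : (C (3 * (3 * t * c)) : PowerSeries ℤ) = C c + C ((p : ℤ) * c) := by
      rw [← map_add]
      congr 1
      linear_combination (-c) * ht
    rw [hX'def, hudef, hV4, hV6]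
    simp only [map_mul, map_ofNat] at e ⊢
    linear_combination e
  -- the pair
  have hD : IsPair p 2 (toC D) ((-(p : ℂ)⁻¹) • toC u) := by
    rw [hDdef, hudef, hc]
    exact isPair_D p hP f 3 φ₀ hf
  have pair1 := IsPair.cast (k' := (6 : ℤ)) (by norm_num) (hP.mul hD (hP.ofLevelOne (p := p) hL.E4))
  have pair2 := hP.smul (c : ℂ) (hP.ofLevelOne (p := p) hL.E6)
  have pair := PairCalc.sub hP pair1 pair2
  have eA : toC D * toC E4Z - (c : ℂ) • toC E6Z = (3 : ℂ) • toC X := by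
    have := congrArg toC h3X
    rw [map_mul, map_sub, map_mul, map_mul, PowerSeries.map_C, PowerSeries.map_C] at this
    rw [PowerSeries.smul_eq_C_mul, PowerSeries.smul_eq_C_mul]
    simpa using this.symm
  have eB : ((-(p : ℂ)⁻¹) • toC u) * psV p (toC E4Z) - (c : ℂ) • psV p (toC E6Z)
      = (-(3 : ℂ) * (p : ℂ)⁻¹) • toC X' := by
    have h := congrArg toC h3X'
    rw [map_mul, map_add, map_mul, map_mul, map_psV, map_psV, PowerSeries.map_C,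
      PowerSeries.map_C] at h
    rw [PowerSeries.smul_eq_C_mul, PowerSeries.smul_eq_C_mul, PowerSeries.smul_eq_C_mul]
    have e : (C (-(p : ℂ)⁻¹) : PowerSeries ℂ) * C ((Int.castRingHom ℂ) ((p : ℤ) * c)) = - C (c : ℂ) := by
      rw [← map_mul, ← map_neg]
      congr 1
      simp only [eq_intCast, Int.cast_mul, Int.cast_natCast]
      field_simp
    have e3 : (C (-(3 : ℂ) * (p : ℂ)⁻¹) : PowerSeries ℂ) = C (-(p : ℂ)⁻¹) * C ((Int.castRingHom ℂ) 3) := by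
      rw [← map_mul]
      congr 1
      simp
      ring
    rw [e3]
    linear_combination (-(psV p (toC E6Z))) * e - (C (-(p : ℂ)⁻¹)) * h
  rw [eA, eB] at pair
  -- the exponent
  have h3p : 3 ∣ p + 1 := Dvd.dvd.trans (by norm_num) h9
  obtain ⟨v, hv, hv1, hv2⟩ : ∃ v : ℕ, 1 ≤ v ∧ ((3 : ℕ) : ℤ) ^ v ∣ (p : ℤ) + 1 ∧
      ¬ ((3 : ℕ) : ℤ) ^ (v + 1) ∣ (p : ℤ) + 1 := by
    refine ⟨padicValNat 3 (p + 1), one_le_padicValNat_of_dvd (Nat.succ_ne_zero p) h3p, ?_, ?_⟩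
    · have := pow_padicValNat_dvd (p := 3) (n := p + 1)
      exact_mod_cast this
    · have := pow_succ_padicValNat_not_dvd (p := 3) (n := p + 1) (Nat.succ_ne_zero p)
      exact_mod_cast this
  have hodd : Odd (3 ^ v) := (by decide : Odd 3).pow
  have hr1 : 1 ≤ 3 ^ v := Nat.one_le_pow _ _ (by norm_num)
  have hrel : (p : ℂ) ^ (3 ^ v - 1 + 1) * (-(3 : ℂ) * (p : ℂ)⁻¹) ^ (3 ^ v)
      = ((-1 : ℤ) : ℂ) * (3 : ℂ) ^ (3 ^ v) := by
    rw [Nat.sub_add_cancel hr1, neg_mul, hodd.neg_pow, mul_pow, inv_pow]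
    have : (p : ℂ) ^ (3 ^ v) ≠ 0 := pow_ne_zero _ hpC
    field_simp
    simp
  have hlev := levelOne_of_pair p hP hL pair (by norm_num) (3 ^ v) (3 ^ v - 1) (-1) hrel
  have hlev' : IsLevelOne ((3 ^ v : ℕ) * ((6 : ℕ) : ℤ))
      (toC ((p : PowerSeries ℤ) ^ (3 ^ v - 1) * X ^ (3 ^ v) + C (-1) * psU p (X' ^ (3 ^ v)))) :=
    IsLevelOne.cast (by push_cast; ring) hlev
  obtain ⟨hκ1, hκ2⟩ := val_odd p 3 (by norm_num) v hv1 hv2 hv
  -- congruences
  have hlC : (((3 : ℕ) : ℤ) : PowerSeries ℤ) = C 3 := by simp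
  have hX : (((3 : ℕ) : ℤ) : PowerSeries ℤ) ∣ X - ζ := by
    refine ⟨C (27 * c) * sigZ 3 + C (56 * c) * sigZ 5 - C 8 * φ₀ * E4Z, ?_⟩
    rw [hlC, hXdef, hζdef]
    simp only [map_mul, map_neg, map_ofNat]
    ring
  have hX' : (((3 : ℕ) : ℤ) : PowerSeries ℤ) ∣ X' - psV p ζ := by
    refine ⟨C (t * c) + C (27 * c) * psV p (sigZ 3) - C (56 * (p : ℤ) * c) * psV p (sigZ 5)
      - C 8 * psU p φ₀ * psV p E4Z, ?_⟩
    have e1 : psV p ζ = C (-c) * psV p (sigZ 3) := by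
      rw [hζdef, psV_mul hp0, psV_C hp0]
    rw [hlC, hX'def, e1]
    simp only [map_mul, map_neg, map_ofNat]
    ring
  have hζ0 : coeff 0 ζ = 0 := by
    rw [hζdef, coeff_C_mul]; simp [sigZ]
  have hζ1 : ¬ (((3 : ℕ) : ℤ)) ∣ coeff 1 ζ := by
    rw [hζdef, coeff_C_mul]
    simp only [sigZ, coeff_mk]
    simp only [ArithmeticFunction.sigma_one, Nat.cast_one, mul_one, Nat.cast_ofNat]
    intro h
    rw [hc] at h
    omega
  exact engine p hL 3 v 6 (3 ^ v - 1) (by norm_num) (-1) X X' ζ hlev' hX hX' hκ1 hκ2 hζ0 hζ1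

end Fermat.Agent.S16

end
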