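import Fermat.Agent.S16.Interface
import Fermat.Agent.S16.Formal
import Fermat.Agent.S16.UB.PairLemmas
import Fermat.Agent.S16.UB.Engine
import Fermat.Agent.S16.UB.Arith

/-!
# S16, upper bound: the residual case `ℓ ≥ 5`, `ℓ ∣ p + 1`

If `f = δ + ℓ φ₀` is a cusp form of weight two on `Γ₀(p)` and `ℓ ∣ p + 1`, `ℓ ≥ 5`, we derive a
contradiction from the trace to level one of `(D H₁ - c H₂) ^ (ℓ ^ v)`.
-/

set_option autoImplicit false

noncomputable section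

namespace Fermat.Agent.S16

open UpperHalfPlane ModularForm CongruenceSubgroup PowerSeries
open scoped MatrixGroups ModularForm Manifold

namespace CaseGe5

theorem coeff_zero_sigZ (j : ℕ) : coeff 0 (sigZ j) = 0 := by
  simp [sigZ]

theorem coeff_one_sigZ (j : ℕ) : coeff 1 (sigZ j) = 1 := by
  simp [sigZ]

theorem coeff_zero_E4Z : coeff 0 E4Z = 1 := by
  have h : (240 : PowerSeries ℤ) = C 240 := by simp
  rw [E4Z, map_add, h, coeff_C_mul, coeff_zero_sigZ]; simp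

theorem coeff_one_E4Z : coeff 1 E4Z = 240 := by
  have h : (240 : PowerSeries ℤ) = C 240 := by simp
  rw [E4Z, map_add, h, coeff_C_mul, coeff_one_sigZ]; simp [coeff_one]

theorem coeff_zero_E6Z : coeff 0 E6Z = 1 := by
  have h : (504 : PowerSeries ℤ) = C 504 := by simp
  rw [E6Z, map_sub, h, coeff_C_mul, coeff_zero_sigZ]; simp

theorem coeff_one_E6Z : coeff 1 E6Z = -504 := by
  have h : (504 : PowerSeries ℤ) = C 504 := by simp
  rw [E6Z, map_sub, h, coeff_C_mul, coeff_one_sigZ]; simp [coeff_one]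

theorem coeff_zero_E4Z_sq : coeff 0 (E4Z ^ 2) = 1 := by
  rw [sq, coeff_mul]
  simp [coeff_zero_E4Z]

theorem coeff_one_E4Z_sq : coeff 1 (E4Z ^ 2) = 480 := by
  rw [sq, coeff_mul, Finset.Nat.antidiagonal_succ]
  simp [coeff_zero_E4Z, coeff_one_E4Z]

end CaseGe5

open CaseGe5

variable (p : ℕ) [Fact p.Prime]

/-- the general mechanism: `H₁`, `H₂` integral level one series of weights `w₁`, `w₁ + 2`. -/
theorem case_ge5_aux (hP : PairCalc p) (hL : LevelOneCalc) (l : ℕ) [Fact l.Prime] (hl2 : l ≠ 2)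
    (hlp : l ∣ p + 1) (f : CuspForm (Gamma0 p) 2) (φ₀ : PowerSeries ℤ)
    (hf : qExpansion 1 f = toC (deltaZ p + C (l : ℤ) * φ₀))
    (w₁ : ℕ) (hw : w₁ + 2 < 12) (H₁ H₂ : PowerSeries ℤ)
    (h1 : IsLevelOne (w₁ : ℤ) (toC H₁)) (h2 : IsLevelOne ((w₁ : ℤ) + 2) (toC H₂))
    (h10 : coeff 0 H₁ = 1) (h20 : coeff 0 H₂ = 1)
    (hne : ¬ (l : ℤ) ∣ ((p : ℤ) - 1) * (coeff 1 H₁ - coeff 1 H₂)) : False := by
  have hp : p.Prime := Fact.out
  have hl : l.Prime := Fact.out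
  have hp0 : p ≠ 0 := hp.ne_zero
  have hpC : (p : ℂ) ≠ 0 := Nat.cast_ne_zero.2 hp0
  obtain ⟨c, hc⟩ : ∃ c : ℤ, c = (p : ℤ) - 1 := ⟨_, rfl⟩
  obtain ⟨D, hDdef⟩ : ∃ D : PowerSeries ℤ, D = C c - C (24 * (l : ℤ)) * φ₀ := ⟨_, rfl⟩
  obtain ⟨u, hudef⟩ : ∃ u : PowerSeries ℤ, u = C c - C (24 * (l : ℤ)) * psU p φ₀ := ⟨_, rfl⟩
  obtain ⟨X, hXdef⟩ : ∃ X : PowerSeries ℤ, X = D * H₁ - C c * H₂ := ⟨_, rfl⟩
  obtain ⟨X', hX'def⟩ : ∃ X' : PowerSeries ℤ,
    X' = u * psV p H₁ + C ((p : ℤ) * c) * psV p H₂ := ⟨_, rfl⟩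
  obtain ⟨ζ, hζdef⟩ : ∃ ζ : PowerSeries ℤ, ζ = C c * (H₁ - H₂) := ⟨_, rfl⟩
  rw [← hc] at hne
  -- the pair
  have hD : IsPair p 2 (toC D) ((-(p : ℂ)⁻¹) • toC u) := by
    rw [hDdef, hudef, hc]
    exact isPair_D p hP f l φ₀ hf
  have pair1 := IsPair.cast (k' := (w₁ : ℤ) + 2) (by ring) (hP.mul hD (hP.ofLevelOne (p := p) h1))
  have pair2 := hP.smul (c : ℂ) (hP.ofLevelOne (p := p) h2)
  have pair := PairCalc.sub hP pair1 pair2
  have eA : toC D * toC H₁ - (c : ℂ) • toC H₂ = (1 : ℂ) • toC X := by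
    rw [one_smul, hXdef, map_sub, map_mul, map_mul, PowerSeries.smul_eq_C_mul, PowerSeries.map_C]
    simp only [eq_intCast]
  have eB : ((-(p : ℂ)⁻¹) • toC u) * psV p (toC H₁) - (c : ℂ) • psV p (toC H₂)
      = (-(p : ℂ)⁻¹) • toC X' := by
    rw [hX'def, map_add, map_mul, map_mul, map_psV, map_psV, PowerSeries.smul_eq_C_mul,
      PowerSeries.smul_eq_C_mul, PowerSeries.smul_eq_C_mul, PowerSeries.map_C]
    have e : (C (-(p : ℂ)⁻¹) : PowerSeries ℂ) * C ((Int.castRingHom ℂ) ((p : ℤ) * c)) = - C (c : ℂ) := by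
      rw [← map_mul, ← map_neg]
      congr 1
      simp only [eq_intCast, Int.cast_mul, Int.cast_natCast]
      field_simp
    linear_combination (-(psV p (toC H₂))) * e
  rw [eA, eB] at pair
  -- the exponent
  obtain ⟨v, hv, hv1, hv2⟩ : ∃ v : ℕ, 1 ≤ v ∧ (l : ℤ) ^ v ∣ (p : ℤ) + 1 ∧
      ¬ (l : ℤ) ^ (v + 1) ∣ (p : ℤ) + 1 := by
    refine ⟨padicValNat l (p + 1), one_le_padicValNat_of_dvd (Nat.succ_ne_zero p) hlp, ?_, ?_⟩
    · have := pow_padicValNat_dvd (p := l) (n := p + 1)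
      exact_mod_cast this
    · have := pow_succ_padicValNat_not_dvd (p := l) (n := p + 1) (Nat.succ_ne_zero p)
      exact_mod_cast this
  have hodd : Odd (l ^ v) := (hl.odd_of_ne_two hl2).pow
  have hr1 : 1 ≤ l ^ v := Nat.one_le_pow _ _ hl.pos
  have hrel : (p : ℂ) ^ (l ^ v - 1 + 1) * (-(p : ℂ)⁻¹) ^ (l ^ v) = ((-1 : ℤ) : ℂ) * (1 : ℂ) ^ (l ^ v) := by
    rw [Nat.sub_add_cancel hr1, hodd.neg_pow, inv_pow]
    have : (p : ℂ) ^ (l ^ v) ≠ 0 := pow_ne_zero _ hpC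
    field_simp
    simp
  have hlev := levelOne_of_pair p hP hL pair one_ne_zero (l ^ v) (l ^ v - 1) (-1) hrel
  have hlev' : IsLevelOne ((l ^ v : ℕ) * ((w₁ + 2 : ℕ) : ℤ))
      (toC ((p : PowerSeries ℤ) ^ (l ^ v - 1) * X ^ (l ^ v) + C (-1) * psU p (X' ^ (l ^ v)))) :=
    IsLevelOne.cast (by push_cast; ring) hlev
  obtain ⟨hκ1, hκ2⟩ := val_odd p l hl2 v hv1 hv2 hv
  -- congruences
  have hlC : ((l : ℤ) : PowerSeries ℤ) = C (l : ℤ) := by simp
  have hX : ((l : ℤ) : PowerSeries ℤ) ∣ X - ζ := by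
    refine ⟨-(C 24 * φ₀ * H₁), ?_⟩
    rw [hlC, hXdef, hζdef, hDdef, map_mul]
    ring
  have hX' : ((l : ℤ) : PowerSeries ℤ) ∣ X' - psV p ζ := by
    obtain ⟨t, ht⟩ : (l : ℤ) ∣ (p : ℤ) + 1 := by exact_mod_cast hlp
    refine ⟨-(C 24 * psU p φ₀ * psV p H₁) + C (t * c) * psV p H₂, ?_⟩
    have e1 : psV p ζ = C c * (psV p H₁ - psV p H₂) := by
      rw [hζdef, psV_mul hp0, psV_C hp0, psV_sub]
    have e2 : (C ((p : ℤ) * c) : PowerSeries ℤ) + C c = C (l : ℤ) * C (t * c) := by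
      rw [← map_add, ← map_mul]
      congr 1
      linear_combination c * ht
    rw [hlC, hX'def, e1, hudef, map_mul]
    linear_combination (psV p H₂) * e2
  have hζ0 : coeff 0 ζ = 0 := by
    rw [hζdef, coeff_C_mul, map_sub, h10, h20]; simp
  have hζ1 : ¬ (l : ℤ) ∣ coeff 1 ζ := by
    rw [hζdef, coeff_C_mul, map_sub]; exact hne
  exact engine p hL l v (w₁ + 2) (l ^ v - 1) hw (-1) X X' ζ hlev' hX hX' hκ1 hκ2 hζ0 hζ1

theorem case_ge5 (hP : PairCalc p) (hL : LevelOneCalc) (_hp : 5 ≤ p) (l : ℕ) [Fact l.Prime] (hl : 5 ≤ l)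
    (hlp : l ∣ p + 1) (f : CuspForm (Gamma0 p) 2) (φ₀ : PowerSeries ℤ)
    (hf : qExpansion 1 f = toC (deltaZ p + C (l : ℤ) * φ₀)) : False := by
  have hlpr : l.Prime := Fact.out
  have hlZ : Prime (l : ℤ) := Nat.prime_iff_prime_int.1 hlpr
  have hl2 : l ≠ 2 := by omega
  -- `l ∤ p - 1`
  have hc : ¬ (l : ℤ) ∣ (p : ℤ) - 1 := by
    intro h
    have h1 : (l : ℤ) ∣ (p : ℤ) + 1 := by exact_mod_cast hlp
    have h2 : (l : ℤ) ∣ 2 := by
      have := dvd_sub h1 h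
      simpa using this
    have := Int.le_of_dvd (by norm_num) h2
    omega
  by_cases h31 : l = 31
  · refine case_ge5_aux p hP hL l hl2 hlp f φ₀ hf 6 (by norm_num) E6Z (E4Z ^ 2) hL.E6 ?_
      coeff_zero_E6Z coeff_zero_E4Z_sq ?_
    · have := hL.pow 2 hL.E4
      rw [← map_pow] at this
      exact IsLevelOne.cast (by norm_num) this
    · rw [coeff_one_E6Z, coeff_one_E4Z_sq]
      intro h
      rcases hlZ.dvd_or_dvd h with h | h
      · exact hc h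
      · subst h31
        norm_num at h
  · refine case_ge5_aux p hP hL l hl2 hlp f φ₀ hf 4 (by norm_num) E4Z E6Z hL.E4 ?_
      coeff_zero_E4Z coeff_zero_E6Z ?_
    · exact IsLevelOne.cast (by norm_num) hL.E6
    · rw [coeff_one_E4Z, coeff_one_E6Z]
      intro h
      rcases hlZ.dvd_or_dvd h with h | h
      · exact hc h
      · have h744 : l ∣ 744 := by
          have : (l : ℤ) ∣ ((744 : ℕ) : ℤ) := by simpa using h
          exact_mod_cast this
        have hfac : (744 : ℕ) = 2 ^ 3 * 3 * 31 := by norm_num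
        rw [hfac] at h744
        rcases (Nat.Prime.dvd_mul hlpr).1 h744 with h | h
        · rcases (Nat.Prime.dvd_mul hlpr).1 h with h | h
          · have := (Nat.prime_dvd_prime_iff_eq hlpr Nat.prime_two).1 (hlpr.dvd_of_dvd_pow h)
            omega
          · have := (Nat.prime_dvd_prime_iff_eq hlpr Nat.prime_three).1 h
            omega
        · have := (Nat.prime_dvd_prime_iff_eq hlpr (by norm_num : Nat.Prime 31)).1 h
          exact h31 this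

end Fermat.Agent.S16

end
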