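import Fermat.Agent.S16.Interface
import Fermat.Prelude.Thm_CongruenceSubgroup_one_mem_strictPeriods_Gamma0

/-!
# S16, UB: `claimA` from its ingredients (task S16-U10, owner helper92)

`claimA_of` is the statement `claimA` of the blueprint with the other nodes of the upper bound
(`K_identity` + `dvd_of_K`, the three cases and `arith_final`) as explicit hypotheses.
-/

set_option autoImplicit false

noncomputable section

namespace Fermat.Agent.S16

open UpperHalfPlane ModularForm CongruenceSubgroup PowerSeries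
open scoped MatrixGroups ModularForm Manifold

/-- the constant term of the `q`-expansion of a cusp form on `Γ₀(p)` vanishes. -/
theorem coeff_zero_qExpansion_cuspForm (p : ℕ) (f : CuspForm (Gamma0 p) 2) :
    coeff 0 (qExpansion 1 f) = 0 :=
  CuspFormClass.qExpansion_coeff_zero (h := 1) f one_pos
    (CongruenceSubgroup.one_mem_strictPeriods_Gamma0 p)

/-- step (i): a cusp form congruent to `δ` modulo `d` has `q`-expansion `δ + d φ₀`. -/
theorem exists_phi0 (p : ℕ) (d : ℤ) (f : CuspForm (Gamma0 p) 2)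
    (hf : ∀ k, 1 ≤ k → ∃ a : ℤ, ModularFormClass.qCoeff f k = a ∧ d ∣ a - sigP p k) :
    ∃ φ₀ : PowerSeries ℤ, qExpansion 1 f = toC (deltaZ p + C d * φ₀) := by
  classical
  have h : ∀ k : ℕ, ∃ c : ℤ, coeff k (qExpansion 1 f) = ((sigP p k : ℤ) + d * c : ℤ) := by
    intro k
    rcases Nat.eq_zero_or_pos k with rfl | hk
    · refine ⟨0, ?_⟩
      rw [coeff_zero_qExpansion_cuspForm]
      simp [sigP]
    · obtain ⟨a, ha, c, hc⟩ := hf k hk
      refine ⟨c, ?_⟩
      have : a = (sigP p k : ℤ) + d * c := by linarith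
      rw [← this, ← ha]
      rfl
  choose c hc using h
  refine ⟨PowerSeries.mk c, ?_⟩
  ext k
  rw [hc k, PowerSeries.coeff_map, map_add, PowerSeries.coeff_C_mul, deltaZ, PowerSeries.coeff_mk,
    PowerSeries.coeff_mk]
  rfl

/-- the hypothesis of `claimA` passes to divisors of the modulus. -/
theorem congr_of_dvd (p : ℕ) {d m : ℤ} (hdm : d ∣ m) (f : CuspForm (Gamma0 p) 2)
    (hf : ∀ k, 1 ≤ k → ∃ a : ℤ, ModularFormClass.qCoeff f k = a ∧ m ∣ a - sigP p k) :
    ∀ k, 1 ≤ k → ∃ a : ℤ, ModularFormClass.qCoeff f k = a ∧ d ∣ a - sigP p k := by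
  intro k hk
  obtain ⟨a, ha, h⟩ := hf k hk
  exact ⟨a, ha, hdm.trans h⟩

theorem eisensteinNumerator_pos {p : ℕ} (hp : 2 ≤ p) : 0 < ModularCurve.eisensteinNumerator p := by
  unfold ModularCurve.eisensteinNumerator
  exact Nat.div_pos (Nat.gcd_le_left _ (by omega)) (Nat.gcd_pos_of_pos_left _ (by omega))

/-- `claimA` of the blueprint, with the other nodes of the upper bound as hypotheses. -/
theorem claimA_of (p : ℕ) [Fact p.Prime] (hp : 5 ≤ p)
    (hK : ∀ (f : CuspForm (Gamma0 p) 2) (m : ℤ) (φ₀ : PowerSeries ℤ),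
      qExpansion 1 f = toC (deltaZ p + C m * φ₀) → 24 * m ∣ (p : ℤ) ^ 2 - 1)
    (h5 : ∀ (l : ℕ) [Fact l.Prime], 5 ≤ l → l ∣ p + 1 →
      ∀ (f : CuspForm (Gamma0 p) 2) (φ₀ : PowerSeries ℤ),
        qExpansion 1 f = toC (deltaZ p + C (l : ℤ) * φ₀) → False)
    (h3 : 9 ∣ p + 1 → ∀ (f : CuspForm (Gamma0 p) 2) (φ₀ : PowerSeries ℤ),
      qExpansion 1 f = toC (deltaZ p + C 3 * φ₀) → False)
    (h2 : 8 ∣ p + 1 → ∀ (f : CuspForm (Gamma0 p) 2) (φ₀ : PowerSeries ℤ),
      qExpansion 1 f = toC (deltaZ p + C 2 * φ₀) → False)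
    (har : ∀ m : ℕ, 0 < m → 24 * (m : ℤ) ∣ (p : ℤ) ^ 2 - 1 →
      (∀ l : ℕ, l.Prime → 5 ≤ l → l ∣ m → ¬ l ∣ p + 1) →
      (3 ∣ m → ¬ 9 ∣ p + 1) → (2 ∣ m → ¬ 8 ∣ p + 1) →
      m ∣ ModularCurve.eisensteinNumerator p)
    (m : ℕ) (f : CuspForm (Gamma0 p) 2)
    (hf : ∀ k, 1 ≤ k → ∃ a : ℤ, ModularFormClass.qCoeff f k = a ∧ (m : ℤ) ∣ a - sigP p k) :
    m ∣ ModularCurve.eisensteinNumerator p := by
  -- the case of a positive modulus
  have pos : ∀ M : ℕ, 0 < M →
      (∀ k, 1 ≤ k → ∃ a : ℤ, ModularFormClass.qCoeff f k = a ∧ (M : ℤ) ∣ a - sigP p k) →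
      M ∣ ModularCurve.eisensteinNumerator p := by
    intro M hM hfM
    refine har M hM ?_ ?_ ?_ ?_
    · obtain ⟨φ₀, hφ⟩ := exists_phi0 p (M : ℤ) f hfM
      exact hK f M φ₀ hφ
    · intro l hl hl5 hlM hlp
      have : Fact l.Prime := ⟨hl⟩
      obtain ⟨φ₀, hφ⟩ := exists_phi0 p (l : ℤ) f
        (congr_of_dvd p (Int.natCast_dvd_natCast.mpr hlM) f hfM)
      exact h5 l hl5 hlp f φ₀ hφ
    · intro h3M h9
      obtain ⟨φ₀, hφ⟩ := exists_phi0 p (3 : ℤ) f
        (congr_of_dvd p (by exact_mod_cast h3M) f hfM)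
      exact h3 h9 f φ₀ hφ
    · intro h2M h8
      obtain ⟨φ₀, hφ⟩ := exists_phi0 p (2 : ℤ) f
        (congr_of_dvd p (by exact_mod_cast h2M) f hfM)
      exact h2 h8 f φ₀ hφ
  rcases Nat.eq_zero_or_pos m with rfl | hm
  · exfalso
    have hn := eisensteinNumerator_pos (p := p) (by omega)
    have h := pos (ModularCurve.eisensteinNumerator p + 1) (Nat.succ_pos _)
      (congr_of_dvd p (by simp) f hf)
    have := Nat.le_of_dvd hn h
    omega
  · exact pos m hm hf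

end Fermat.Agent.S16

end
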