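import Fermat.Agent.S16.Defs

/-!
# S16, upper bound: `24 m ∣ p ^ 2 - 1` from the `K`-identity (task S16-U3, helper82)
-/

set_option autoImplicit false

namespace Fermat.Agent.S16

open PowerSeries

namespace DvdOfK

variable (p : ℕ) [Fact p.Prime]

theorem sigP_one' : sigP p 1 = 1 := by
  have hp : p.Prime := Fact.out
  have h1 : ¬ p ∣ 1 := hp.one_lt.ne' ∘ Nat.dvd_one.mp
  simp [sigP, Finset.filter_singleton, h1]

omit [Fact p.Prime] in
theorem sigP_two' (hp5 : 5 ≤ p) : sigP p 2 = 3 := by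
  have h1 : ¬ p ∣ 1 := fun h => by have := Nat.le_of_dvd one_pos h; omega
  have h2 : ¬ p ∣ 2 := fun h => by have := Nat.le_of_dvd two_pos h; omega
  have hd : Nat.divisors 2 = {1, 2} := by decide
  rw [sigP, hd, Finset.filter_insert, Finset.filter_singleton, if_pos h1, if_pos h2]
  simp

theorem sigP_self' : sigP p p = 1 := by
  have hp : p.Prime := Fact.out
  have h1 : ¬ p ∣ 1 := hp.one_lt.ne' ∘ Nat.dvd_one.mp
  rw [sigP, hp.divisors, Finset.filter_insert, Finset.filter_singleton, if_pos h1,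
    if_neg (not_not.mpr dvd_rfl)]
  simp

theorem sigma_three_one : ArithmeticFunction.sigma 3 1 = 1 := by
  simp [ArithmeticFunction.sigma_apply]

theorem sigma_three_two : ArithmeticFunction.sigma 3 2 = 9 := by
  have hd : Nat.divisors 2 = {1, 2} := by decide
  rw [ArithmeticFunction.sigma_apply, hd]
  simp

theorem sigma_three_self : ArithmeticFunction.sigma 3 p = 1 + p ^ 3 := by
  have hp : p.Prime := Fact.out
  rw [ArithmeticFunction.sigma_apply, hp.divisors, Finset.sum_pair hp.one_lt.ne]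
  simp

/-- `24 ∣ p ^ 2 - 1` for a prime `p ≥ 5`. -/
theorem twentyfour_dvd (hp5 : 5 ≤ p) : (24 : ℤ) ∣ (p : ℤ) ^ 2 - 1 := by
  have hp : p.Prime := Fact.out
  have h2 : ¬ 2 ∣ p := fun h => by
    have := (Nat.prime_dvd_prime_iff_eq Nat.prime_two hp).mp h; omega
  have h3 : ¬ 3 ∣ p := fun h => by
    have := (Nat.prime_dvd_prime_iff_eq Nat.prime_three hp).mp h; omega
  have hmod : p % 24 = 1 ∨ p % 24 = 5 ∨ p % 24 = 7 ∨ p % 24 = 11 ∨ p % 24 = 13 ∨ p % 24 = 17 ∨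
      p % 24 = 19 ∨ p % 24 = 23 := by omega
  have hz : ((p : ℤ)) = 24 * ((p / 24 : ℕ) : ℤ) + ((p % 24 : ℕ) : ℤ) := by
    exact_mod_cast (Nat.div_add_mod p 24).symm
  generalize ((p / 24 : ℕ) : ℤ) = k at hz
  rcases hmod with h | h | h | h | h | h | h | h <;> rw [hz, h] <;> push_cast
  · exact ⟨24 * k ^ 2 + 2 * k, by ring⟩
  · exact ⟨24 * k ^ 2 + 10 * k + 1, by ring⟩
  · exact ⟨24 * k ^ 2 + 14 * k + 2, by ring⟩
  · exact ⟨24 * k ^ 2 + 22 * k + 5, by ring⟩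
  · exact ⟨24 * k ^ 2 + 26 * k + 7, by ring⟩
  · exact ⟨24 * k ^ 2 + 34 * k + 12, by ring⟩
  · exact ⟨24 * k ^ 2 + 38 * k + 15, by ring⟩
  · exact ⟨24 * k ^ 2 + 46 * k + 22, by ring⟩

/-- the arithmetic core. -/
theorem core (hp5 : 5 ≤ p) (m P' : ℤ)
    (h1 : m ∣ P' * (1 - 10 * ((p : ℤ) - 1) * 1))
    (h2 : m ∣ P' * (3 - 10 * ((p : ℤ) - 1) * 9))
    (hpp : m ∣ P' * (1 - 10 * ((p : ℤ) - 1) * (1 + (p : ℤ) ^ 3))) : m ∣ P' := by
  have hp : p.Prime := Fact.out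
  have h3 : ¬ 3 ∣ p := fun h => by
    have := (Nat.prime_dvd_prime_iff_eq Nat.prime_three hp).mp h; omega
  -- `m ∣ 6 P'`
  have h6 : m ∣ 6 * P' := by
    have := (h1.mul_left 9).sub h2
    have e : 6 * P' = 9 * (P' * (1 - 10 * ((p : ℤ) - 1) * 1)) -
        P' * (3 - 10 * ((p : ℤ) - 1) * 9) := by ring
    rw [e]
    exact this
  -- `m ∣ 3 P'`
  have h3' : m ∣ 3 * P' := by
    have := (h1.mul_left 3).sub (h6.mul_left (5 - 5 * (p : ℤ)))
    have e : 3 * P' = 3 * (P' * (1 - 10 * ((p : ℤ) - 1) * 1)) -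
        (5 - 5 * (p : ℤ)) * (6 * P') := by ring
    rw [e]
    exact this
  have hmod : p % 3 = 1 ∨ p % 3 = 2 := by omega
  have hz : ((p : ℤ)) = 3 * ((p / 3 : ℕ) : ℤ) + ((p % 3 : ℕ) : ℤ) := by
    exact_mod_cast (Nat.div_add_mod p 3).symm
  generalize ((p / 3 : ℕ) : ℤ) = k at hz
  rcases hmod with h | h
  · rw [h] at hz
    push_cast at hz
    have := h1.add (h3'.mul_left (10 * k))
    have e : P' = P' * (1 - 10 * ((p : ℤ) - 1) * 1) + 10 * k * (3 * P') := by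
      rw [hz]
      ring
    rw [e]
    exact this
  · rw [h] at hz
    push_cast at hz
    have := hpp.add (h3'.mul_left (10 * ((p : ℤ) - 1) * (k + 1) * (1 - (p : ℤ) + (p : ℤ) ^ 2)))
    have hk : (1 + (p : ℤ) ^ 3) = 3 * (k + 1) * (1 - (p : ℤ) + (p : ℤ) ^ 2) := by
      have : (1 + (p : ℤ)) = 3 * (k + 1) := by rw [hz]; ring
      calc (1 + (p : ℤ) ^ 3) = (1 + (p : ℤ)) * (1 - (p : ℤ) + (p : ℤ) ^ 2) := by ring
        _ = _ := by rw [this]
    have e : P' = P' * (1 - 10 * ((p : ℤ) - 1) * (1 + (p : ℤ) ^ 3)) +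
        10 * ((p : ℤ) - 1) * (k + 1) * (1 - (p : ℤ) + (p : ℤ) ^ 2) * (3 * P') := by
      rw [hk]
      ring
    rw [e]
    exact this

end DvdOfK

variable (p : ℕ) [Fact p.Prime]

theorem dvd_of_K (hp : 5 ≤ p) (m : ℤ) (φ₀ ψ : PowerSeries ℤ)
    (h : C ((p : ℤ) ^ 2 - 1) * (deltaZ p - C (10 * ((p : ℤ) - 1)) * sigZ 3 - C m * φ₀)
      = C (24 * m) * ψ) : 24 * m ∣ (p : ℤ) ^ 2 - 1 := by
  obtain ⟨P', hP'⟩ := DvdOfK.twentyfour_dvd p hp
  have hk : ∀ k : ℕ, m ∣ P' * ((sigP p k : ℤ) - 10 * ((p : ℤ) - 1) *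
      (ArithmeticFunction.sigma 3 k : ℤ)) := by
    intro k
    have hc := congrArg (coeff k) h
    rw [hP', coeff_C_mul, coeff_C_mul, map_sub, map_sub, coeff_C_mul, coeff_C_mul, deltaZ, sigZ,
      coeff_mk, coeff_mk] at hc
    have hc' : P' * ((sigP p k : ℤ) - 10 * ((p : ℤ) - 1) *
      (ArithmeticFunction.sigma 3 k : ℤ) - m * coeff k φ₀) = m * coeff k ψ := by
      have : (24 : ℤ) ≠ 0 := by norm_num
      apply mul_left_cancel₀ this
      linear_combination hc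
    refine ⟨coeff k ψ + P' * coeff k φ₀, ?_⟩
    linear_combination hc'
  have h1 := hk 1
  have h2 := hk 2
  have h3 := hk p
  rw [DvdOfK.sigP_one', DvdOfK.sigma_three_one] at h1
  rw [DvdOfK.sigP_two' p hp, DvdOfK.sigma_three_two] at h2
  rw [DvdOfK.sigP_self', DvdOfK.sigma_three_self] at h3
  push_cast at h1 h2 h3
  have := DvdOfK.core p hp m P' h1 h2 h3
  rw [hP']
  exact mul_dvd_mul_left 24 this

end Fermat.Agent.S16
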