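import Fermat.Agent.S16.Interface
import Fermat.Agent.S16.Formal
import Fermat.Agent.S16.SigmaP
import Fermat.Prelude.Thm_CongruenceSubgroup_one_mem_strictPeriods_Gamma0

/-!
# S16, upper bound: the identity `K`

`(p^2-1) (δ - 10 (p-1) S₃ - m φ₀) = 24 m ψ` for a cusp form `f = δ + m φ₀`.
-/

set_option autoImplicit false

noncomputable section

namespace Fermat.Agent.S16

open UpperHalfPlane ModularForm CongruenceSubgroup PowerSeries
open scoped MatrixGroups ModularForm Manifold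

namespace KId

theorem coeff_zero_toC_E4Z : coeff 0 (toC E4Z) = 1 := by
  rw [toC, PowerSeries.coeff_map]
  have : coeff 0 E4Z = 1 := by
    rw [E4Z, map_add, PowerSeries.coeff_mul]
    simp [sigZ]
  simp [this]

/-- a level one form of weight `4` is a multiple of `E₄`. -/
theorem levelOne_four (hL : LevelOneCalc) {A : PowerSeries ℂ} (h : IsLevelOne 4 A) :
    A = C (coeff 0 A) * toC E4Z := by
  have h1 : IsLevelOne ((4 : ℕ) : ℤ) (A + (-(coeff 0 A)) • toC E4Z) := by
    have := hL.add h (hL.smul (-(coeff 0 A)) hL.E4)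
    exact_mod_cast this
  have h2 := hL.sturm ⊥ 4 h1 (by
    intro n hn
    have hn0 : n = 0 := by omega
    subst hn0
    rw [AddSubgroup.mem_bot, map_add, PowerSeries.coeff_smul, coeff_zero_toC_E4Z]
    simp)
  ext n
  have h3 := h2 n
  rw [AddSubgroup.mem_bot, map_add, PowerSeries.coeff_smul] at h3
  rw [PowerSeries.coeff_C_mul]
  simp only [smul_eq_mul] at h3
  linear_combination h3

/-- a level one form of weight `2` vanishes as soon as its constant term does. -/
theorem levelOne_two (hL : LevelOneCalc) {A : PowerSeries ℂ} (h : IsLevelOne 2 A)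
    (h0 : coeff 0 A = 0) : A = 0 := by
  have h1 : IsLevelOne ((2 : ℕ) : ℤ) A := by exact_mod_cast h
  have h2 := hL.sturm ⊥ 2 h1 (by
    intro n hn
    have hn0 : n = 0 := by omega
    subst hn0
    rw [AddSubgroup.mem_bot, h0])
  ext n
  simpa using h2 n

theorem coeff_zero_psU (p : ℕ) (A : PowerSeries ℂ) : coeff 0 (psU p A) = coeff 0 A := by
  rw [coeff_psU, zero_mul]

theorem coeff_zero_mul' (A B : PowerSeries ℂ) : coeff 0 (A * B) = coeff 0 A * coeff 0 B := by
  simp [PowerSeries.coeff_mul]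

variable (p : ℕ) [Fact p.Prime]

theorem cast_p_ne_zero : (p : ℂ) ≠ 0 := Nat.cast_ne_zero.mpr (Fact.out : p.Prime).ne_zero

/-- `U_p` is an involution on weight two forms. -/
theorem psU_psU_of_isPair (hP : PairCalc p) (hL : LevelOneCalc) {A B : PowerSeries ℂ}
    (h : IsPair p 2 A B) : psU p (psU p A) = A := by
  have hp0 := cast_p_ne_zero p
  have hB := hP.weightTwo h
  have ht := hP.trace h
  rw [hB, psU_smul, smul_smul] at ht
  have hc : (p : ℂ) * -(p : ℂ)⁻¹ = -1 := by field_simp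
  rw [hc] at ht
  have h0 : coeff 0 (A + (-1 : ℂ) • psU p (psU p A)) = 0 := by
    rw [map_add, PowerSeries.coeff_smul, coeff_zero_psU, coeff_zero_psU]
    simp
  have h1 := levelOne_two hL ht h0
  rw [neg_one_smul] at h1
  exact (eq_of_sub_eq_zero (by rw [← h1, sub_eq_add_neg])).symm

/-- trace of the product of two weight two forms. -/
theorem pair_mul_trace (hP : PairCalc p) (hL : LevelOneCalc) {A₁ B₁ A₂ B₂ : PowerSeries ℂ}
    (h₁ : IsPair p 2 A₁ B₁) (h₂ : IsPair p 2 A₂ B₂) :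
    A₁ * A₂ + C ((p : ℂ)⁻¹) * psU p (psU p A₁ * psU p A₂)
      = C ((1 + (p : ℂ)⁻¹) * (coeff 0 A₁ * coeff 0 A₂)) * toC E4Z := by
  have hp0 := cast_p_ne_zero p
  have hB₁ := hP.weightTwo h₁
  have hB₂ := hP.weightTwo h₂
  have ht := hP.trace (hP.mul h₁ h₂)
  have h22 : (2 : ℤ) + 2 = 4 := by norm_num
  rw [h22, hB₁, hB₂, smul_mul_smul_comm, psU_smul, smul_smul, PowerSeries.smul_eq_C_mul] at ht
  have hc : (p : ℂ) * (-(p : ℂ)⁻¹ * -(p : ℂ)⁻¹) = (p : ℂ)⁻¹ := by field_simp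
  rw [hc] at ht
  have h4 := levelOne_four hL ht
  rw [h4]
  congr 2
  rw [map_add, PowerSeries.coeff_C_mul, coeff_zero_psU, coeff_zero_mul', coeff_zero_mul',
    coeff_zero_psU, coeff_zero_psU]
  ring

end KId

open KId in
/-- UB/KIdentity -/
theorem K_identity (p : ℕ) [Fact p.Prime] (hP : PairCalc p) (hL : LevelOneCalc)
    (f : CuspForm (Gamma0 p) 2) (m : ℤ)
    (φ₀ : PowerSeries ℤ) (hf : qExpansion 1 f = toC (deltaZ p + C m * φ₀)) :
    ∃ ψ : PowerSeries ℤ, C ((p : ℤ) ^ 2 - 1) * (deltaZ p - C (10 * ((p : ℤ) - 1)) * sigZ 3 - C m * φ₀)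
      = C (24 * m) * ψ := by
  have hp0 := cast_p_ne_zero p
  have hpne : p ≠ 0 := (Fact.out : p.Prime).ne_zero
  refine ⟨C (p : ℤ) * φ₀ * deltaZ p + psU p (deltaZ p * psU p φ₀), ?_⟩
  apply toC_injective
  obtain ⟨B, hB⟩ := hP.cusp f
  obtain ⟨B', hB'⟩ := hP.eis
  have I1 := pair_mul_trace p hP hL hB hB'
  have I2 := pair_mul_trace p hP hL hB' hB'
  have I3 := psU_psU_of_isPair p hP hL hB
  have hF0 : coeff 0 (qExpansion 1 f) = 0 :=
    CuspFormClass.qExpansion_coeff_zero f one_pos (CongruenceSubgroup.one_mem_strictPeriods_Gamma0 p)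
  have hUE : psU p (EisQ p) = EisQ p := psU_EisQ p
  have hUδ : psU p (toC (deltaZ p)) = toC (deltaZ p) := by
    rw [toC, ← map_psU, psU_deltaZ]
  have hF : qExpansion 1 f = toC (deltaZ p) + C (m : ℂ) * toC φ₀ := by
    rw [hf, map_add, map_mul, toC, PowerSeries.map_C]; simp
  have hE : EisQ p = C (((p : ℂ) - 1) / 24) + toC (deltaZ p) := rfl
  have hδ0 : coeff 0 (toC (deltaZ p)) = 0 := by
    rw [toC, PowerSeries.coeff_map, deltaZ, PowerSeries.coeff_mk, sigP_zero]; simp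
  have hE0 : coeff 0 (EisQ p) = ((p : ℂ) - 1) / 24 := by
    rw [hE, map_add, hδ0, PowerSeries.coeff_zero_C, add_zero]
  have hE4 : toC E4Z = 1 + 240 * toC (sigZ 3) := by
    rw [E4Z, map_add, map_mul, map_one, map_ofNat]
  rw [hF0, hE0, hUE, zero_mul, mul_zero, map_zero, zero_mul] at I1
  rw [hE0, hUE, hE4] at I2
  -- the goal in terms of complex power series
  have hgoalL : toC (C ((p : ℤ) ^ 2 - 1) *
      (deltaZ p - C (10 * ((p : ℤ) - 1)) * sigZ 3 - C m * φ₀))
      = (C (p : ℂ) ^ 2 - 1) * (toC (deltaZ p) - (10 * (C (p : ℂ) - 1)) * toC (sigZ 3)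
          - C (m : ℂ) * toC φ₀) := by
    simp only [toC, map_mul, map_sub, PowerSeries.map_C, Int.coe_castRingHom, Int.cast_natCast,
      map_pow, map_one, map_ofNat]
  have hgoalR : toC (C (24 * m) * (C (p : ℤ) * φ₀ * deltaZ p + psU p (deltaZ p * psU p φ₀)))
      = (24 * C (m : ℂ)) * (C (p : ℂ) * toC φ₀ * toC (deltaZ p)
          + psU p (toC (deltaZ p) * psU p (toC φ₀))) := by
    simp only [toC, map_mul, map_add, PowerSeries.map_C, Int.coe_castRingHom, Int.cast_natCast,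
      map_ofNat, map_psU]
  rw [hgoalL, hgoalR]
  -- unfold `U f`
  have hUF : psU p (qExpansion 1 f) = toC (deltaZ p) + C (m : ℂ) * psU p (toC φ₀) := by
    rw [hF, psU_add, psU_C_mul, hUδ]
  have hUUF : psU p (psU p (qExpansion 1 f))
      = toC (deltaZ p) + C (m : ℂ) * psU p (psU p (toC φ₀)) := by
    rw [hUF, psU_add, psU_C_mul, hUδ]
  have I3' : C (m : ℂ) * psU p (psU p (toC φ₀)) = C (m : ℂ) * toC φ₀ := by
    have := I3
    rw [hUUF, hF] at this
    exact add_left_cancel this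
  have hprod : psU p (qExpansion 1 f) * EisQ p
      = EisQ p * EisQ p - C (((p : ℂ) - 1) / 24) * EisQ p
        + C (m : ℂ) * (C (((p : ℂ) - 1) / 24) * psU p (toC φ₀))
        + C (m : ℂ) * (toC (deltaZ p) * psU p (toC φ₀)) := by
    rw [hUF, hE]; ring
  have hUprod : psU p (psU p (qExpansion 1 f) * EisQ p)
      = psU p (EisQ p * EisQ p) - C (((p : ℂ) - 1) / 24) * EisQ p
        + C (m : ℂ) * (C (((p : ℂ) - 1) / 24) * psU p (psU p (toC φ₀)))
        + C (m : ℂ) * psU p (toC (deltaZ p) * psU p (toC φ₀)) := by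
    rw [hprod, psU_add, psU_add, psU_sub, psU_C_mul, psU_C_mul, psU_C_mul, psU_C_mul, hUE]
  rw [hUprod, hF] at I1
  have hPPi : C (p : ℂ) * C ((p : ℂ)⁻¹) = 1 := by
    rw [← map_mul, mul_inv_cancel₀ hp0, map_one]
  have he : C (p : ℂ) = 24 * C (((p : ℂ) - 1) / 24) + 1 := by
    have h24 : (24 : PowerSeries ℂ) = C (24 : ℂ) := (map_ofNat C 24).symm
    rw [h24, ← map_mul, ← map_one (C (R := ℂ)), ← map_add]
    congr 1
    field_simp
    ring
  have hcoef : C ((1 + (p : ℂ)⁻¹) * (((p : ℂ) - 1) / 24 * (((p : ℂ) - 1) / 24)))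
      = (1 + C ((p : ℂ)⁻¹)) * (C (((p : ℂ) - 1) / 24) * C (((p : ℂ) - 1) / 24)) := by
    simp only [map_mul, map_add, map_one]
  rw [hcoef] at I2
  rw [hE] at I1 I2
  generalize psU p ((C (((p : ℂ) - 1) / 24) + toC (deltaZ p)) *
    (C (((p : ℂ) - 1) / 24) + toC (deltaZ p))) = X at I1 I2
  generalize psU p (toC (deltaZ p) * psU p (toC φ₀)) = W at I1 ⊢
  generalize psU p (psU p (toC φ₀)) = V at I1 I3'
  generalize toC (deltaZ p) = δ at I1 I2 ⊢
  generalize toC φ₀ = Φ at I1 I3' ⊢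
  generalize toC (sigZ 3) = S at I2 ⊢
  generalize C (m : ℂ) = M at I1 I3' ⊢
  generalize C ((p : ℂ)⁻¹) = Pi at I1 I2 hPPi
  generalize C (((p : ℂ) - 1) / 24) = e at I1 I2 he
  generalize C (p : ℂ) = P at hPPi he ⊢
  subst he
  have I1P : (24 * e + 1) * ((δ + M * Φ) * (e + δ))
      + (X - e * (e + δ) + M * (e * V) + M * W) = 0 := by
    linear_combination (24 * e + 1) * I1 - (X - e * (e + δ) + M * (e * V) + M * W) * hPPi
  have I2P : (24 * e + 1) * ((e + δ) * (e + δ)) + X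
      = (24 * e + 2) * (e * e) * (1 + 240 * S) := by
    linear_combination (24 * e + 1) * I2 - X * hPPi + (e * e) * (1 + 240 * S) * hPPi
  linear_combination (-24) * I1P + 24 * I2P + 24 * e * I3'

end Fermat.Agent.S16

end
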