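import Fermat.Agent.S16.Formal
import Fermat.Agent.S16.UB.PairLemmas
import Fermat.Agent.S16.UB.Arith

/-!
# S16, upper bound: the case `ℓ = 2`, `p ≡ 7 mod 8`.   Owner helper190.

Core file: the three inputs coming from `SigmaP.lean` and `UB/Engine.lean` are hypotheses here;
`UB/Case2.lean` plugs them in.
-/

set_option autoImplicit false

noncomputable section

namespace Fermat.Agent.S16

open UpperHalfPlane ModularForm CongruenceSubgroup PowerSeries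
open scoped MatrixGroups ModularForm Manifold

namespace CaseTwo

/-- The algebraic heart: the weight `8` combination `Q² - 8gR + 10g²Q - 3g⁴` is `256 X` with
`X ≡ Δ mod 2`. -/
theorem alg_core {K : Type*} [CommRing K] (h64 : ∀ a b : K, 64 * a = 64 * b → a = b)
    {g Q R A B Cc Δ g' : K} (hA : g ^ 2 - Q = 16 * A) (hB : g ^ 3 - R = 8 * B)
    (hC : B - 3 * g * A = 4 * Cc) (hΔ : 1728 * Δ = Q ^ 3 - R ^ 2) (hg : g = 1 + 2 * g') :
    Q ^ 2 - 8 * g * R + 10 * g ^ 2 * Q - 3 * g ^ 4 = 256 * (g * Cc + A ^ 2) ∧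
    (2 : K) ∣ (g * Cc + A ^ 2) - Δ := by
  obtain rfl : Q = g ^ 2 - 16 * A := by linear_combination -hA
  obtain rfl : R = g ^ 3 - 8 * B := by linear_combination -hB
  obtain rfl : B = 3 * g * A + 4 * Cc := by linear_combination hC
  refine ⟨by ring, ?_⟩
  have h27 : 27 * Δ = g ^ 3 * Cc + 12 * g ^ 2 * A ^ 2 - 64 * A ^ 3 - (3 * g * A + 4 * Cc) ^ 2 :=
    h64 _ _ (by linear_combination hΔ)
  subst hg
  refine ⟨-2 * (1 + 2 * g') * Cc * (g' + g' ^ 2) + A ^ 2 * (5 + 18 * g' + 18 * g' ^ 2)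
    + 12 * (1 + 2 * g') * A * Cc + 8 * Cc ^ 2 - 6 * (1 + 2 * g') ^ 2 * A ^ 2 + 32 * A ^ 3
    + 13 * Δ, ?_⟩
  linear_combination (-1 : K) * h27

theorem cancel64 (a b : PowerSeries ℤ) (h : 64 * a = 64 * b) : a = b := by
  ext n
  have := congrArg (coeff n) h
  have h64 : (64 : PowerSeries ℤ) = C 64 := (map_ofNat C 64).symm
  rw [h64, coeff_C_mul, coeff_C_mul] at this
  omega

/-- rational multiples of integral series. -/
theorem smul_toC_eq {a b : ℤ} (hb : b ≠ 0) {A B : PowerSeries ℤ} (h : C b * B = C a * A) :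
    ((a : ℂ) / (b : ℂ)) • toC A = toC B := by
  ext n
  have h1 := congrArg (coeff n) h
  rw [coeff_C_mul, coeff_C_mul] at h1
  have hb' : (b : ℂ) ≠ 0 := by exact_mod_cast hb
  simp only [coeff_smul, toC, coeff_map, eq_intCast, smul_eq_mul]
  field_simp
  exact_mod_cast h1.symm

variable {p : ℕ} [Fact p.Prime]

/-- the weight `8` combination of pairs. -/
theorem pair_Z (hP : PairCalc p) {G G' Q Q' R R' : PowerSeries ℂ} (hG : IsPair p 2 G G')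
    (hQ : IsPair p 4 Q Q') (hR : IsPair p 6 R R') :
    IsPair p 8 (Q ^ 2 - 8 * G * R + 10 * G ^ 2 * Q - 3 * G ^ 4)
      (Q' ^ 2 - 8 * G' * R' + 10 * G' ^ 2 * Q' - 3 * G' ^ 4) := by
  have h1 : IsPair p 8 (Q * Q) (Q' * Q') := (show (4 : ℤ) + 4 = 8 by norm_num) ▸ hP.mul hQ hQ
  have h2 : IsPair p 8 (G * R) (G' * R') := (show (2 : ℤ) + 6 = 8 by norm_num) ▸ hP.mul hG hR
  have hGG : IsPair p 4 (G * G) (G' * G') := (show (2 : ℤ) + 2 = 4 by norm_num) ▸ hP.mul hG hG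
  have h3 : IsPair p 8 (G * G * Q) (G' * G' * Q') :=
    (show (4 : ℤ) + 4 = 8 by norm_num) ▸ hP.mul hGG hQ
  have h4 : IsPair p 8 (G * G * (G * G)) (G' * G' * (G' * G')) :=
    (show (4 : ℤ) + 4 = 8 by norm_num) ▸ hP.mul hGG hGG
  have := hP.add (hP.add (hP.add h1 (hP.smul (-8) h2)) (hP.smul 10 h3)) (hP.smul (-3) h4)
  convert this using 1 <;>
  · simp only [smul_eq_C_mul, map_neg, map_ofNat]
    ring

/-- `V_p` as a ring homomorphism. -/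
def VH (p : ℕ) [Fact p.Prime] : PowerSeries ℤ →+* PowerSeries ℤ where
  toFun := psV p
  map_one' := psV_one (Fact.out : p.Prime).ne_zero
  map_mul' := psV_mul (Fact.out : p.Prime).ne_zero
  map_zero' := by
    have := psV_C (R := ℤ) (Fact.out : p.Prime).ne_zero 0
    simpa using this
  map_add' := psV_add p

theorem VH_apply (A : PowerSeries ℤ) : VH p A = psV p A := rfl

theorem exists_W (hσ : ∀ k : ℕ, (12 : ℤ) ∣
      (ArithmeticFunction.sigma 5 k : ℤ) - ArithmeticFunction.sigma 3 k) :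
    ∃ W : PowerSeries ℤ, 4 * W = 63 * sigZ 5 + 45 * sigZ 3 := by
  obtain ⟨W, hW⟩ : ((4 : ℤ) : PowerSeries ℤ) ∣ 63 * sigZ 5 + 45 * sigZ 3 := by
    rw [intCast_dvd_iff]
    intro n
    have h63 : (63 : PowerSeries ℤ) = C 63 := (map_ofNat C 63).symm
    have h45 : (45 : PowerSeries ℤ) = C 45 := (map_ofNat C 45).symm
    rw [map_add, h63, h45, coeff_C_mul, coeff_C_mul, sigZ, sigZ, coeff_mk, coeff_mk]
    have := hσ n
    omega
  exact ⟨W, by rw [hW]; simp⟩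

/-- first component: integrality and congruence. -/
theorem first_comp {Δ W : PowerSeries ℤ} (hΔ : 1728 * Δ = E4Z ^ 3 - E6Z ^ 2)
    (hW : 4 * W = 63 * sigZ 5 + 45 * sigZ 3) (x : PowerSeries ℤ) :
    ∃ X : PowerSeries ℤ,
      E4Z ^ 2 - 8 * (1 + 8 * x) * E6Z + 10 * (1 + 8 * x) ^ 2 * E4Z - 3 * (1 + 8 * x) ^ 4 = 256 * X ∧
      (2 : PowerSeries ℤ) ∣ X - Δ := by
  have := alg_core cancel64 (g := 1 + 8 * x) (Q := E4Z) (R := E6Z)
    (A := x + 4 * x ^ 2 - 15 * sigZ 3) (B := 3 * x + 24 * x ^ 2 + 64 * x ^ 3 + 63 * sigZ 5)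
    (Cc := -3 * x ^ 2 - 8 * x ^ 3 + 90 * x * sigZ 3 + W) (Δ := Δ) (g' := 4 * x)
    (by simp only [E4Z]; ring) (by simp only [E6Z]; ring) (by linear_combination (-1) * hW) hΔ
    (by ring)
  exact ⟨_, this.1, this.2⟩

/-- second component: integrality and congruence. -/
theorem second_comp {VΔ VW VQ VR VS3 VS5 : PowerSeries ℤ} (hΔ : 1728 * VΔ = VQ ^ 3 - VR ^ 2)
    (hW : 4 * VW = 63 * VS5 + 45 * VS3) (hQ : VQ = 1 + 240 * VS3) (hR : VR = 1 - 504 * VS5)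
    (y t : PowerSeries ℤ) :
    ∃ X : PowerSeries ℤ,
      ((1 + 8 * t) ^ 2 * VQ) ^ 2 - 8 * (1 + 8 * y) * ((1 + 8 * t) ^ 3 * VR)
        + 10 * (1 + 8 * y) ^ 2 * ((1 + 8 * t) ^ 2 * VQ) - 3 * (1 + 8 * y) ^ 4 = 256 * X ∧
      (2 : PowerSeries ℤ) ∣ X - VΔ := by
  have := alg_core cancel64 (g := 1 + 8 * y) (Q := (1 + 8 * t) ^ 2 * VQ)
    (R := (1 + 8 * t) ^ 3 * VR)
    (A := (y - t) * (1 + 4 * (y + t)) - 15 * (1 + 8 * t) ^ 2 * VS3)
    (B := (y - t) * ((1 + 8 * y) ^ 2 + (1 + 8 * y) * (1 + 8 * t) + (1 + 8 * t) ^ 2)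
      + 63 * (1 + 8 * t) ^ 3 * VS5)
    (Cc := -(y - t) ^ 2 * ((1 + 8 * y) + 2 * (1 + 8 * t)) + VW
      + 63 * (6 * t + 48 * t ^ 2 + 128 * t ^ 3) * VS5
      + 45 * (4 * t + 16 * t ^ 2 + 2 * y + 32 * y * t + 128 * y * t ^ 2) * VS3)
    (Δ := (1 + 8 * t) ^ 6 * VΔ) (g' := 4 * y)
    (by rw [hQ]; ring) (by rw [hR]; ring) (by linear_combination (-1) * hW)
    (by linear_combination (1 + 8 * t) ^ 6 * hΔ) (by ring)
  refine ⟨_, this.1, ?_⟩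
  obtain ⟨w, hw⟩ := this.2
  refine ⟨w + 4 * t * (1 + (1 + 8 * t) + (1 + 8 * t) ^ 2 + (1 + 8 * t) ^ 3 + (1 + 8 * t) ^ 4
    + (1 + 8 * t) ^ 5) * VΔ, ?_⟩
  linear_combination hw

/-- clearing the powers of `p` in the second component. -/
theorem second_scale {P : ℂ} (hP0 : P ≠ 0) {UG Q' R' X' : PowerSeries ℂ}
    (h : ((-C P) ^ 2 * Q') ^ 2 - 8 * UG * ((-C P) ^ 3 * R') + 10 * UG ^ 2 * ((-C P) ^ 2 * Q')
      - 3 * UG ^ 4 = 256 * X') :
    Q' ^ 2 - 8 * ((-P⁻¹) • UG) * R' + 10 * ((-P⁻¹) • UG) ^ 2 * Q' - 3 * ((-P⁻¹) • UG) ^ 4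
      = (256 / P ^ 4) • X' := by
  have hab : (C P : PowerSeries ℂ) * C P⁻¹ = 1 := by
    rw [← map_mul, mul_inv_cancel₀ hP0, map_one]
  have h256 : (C (256 / P ^ 4) : PowerSeries ℂ) = 256 * (C P⁻¹) ^ 4 := by
    rw [div_eq_mul_inv, map_mul, ← inv_pow, map_pow, map_ofNat]
  rw [smul_eq_C_mul, smul_eq_C_mul, h256, map_neg]
  generalize (C P : PowerSeries ℂ) = a at *
  generalize (C P⁻¹ : PowerSeries ℂ) = b at *
  have e1 : a ^ 4 * b ^ 4 = 1 := by rw [← mul_pow, hab, one_pow]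
  have e2 : a ^ 3 * b ^ 4 = b := by
    calc a ^ 3 * b ^ 4 = (a * b) ^ 3 * b := by ring
      _ = b := by rw [hab]; ring
  have e3 : a ^ 2 * b ^ 4 = b ^ 2 := by
    calc a ^ 2 * b ^ 4 = (a * b) ^ 2 * b ^ 2 := by ring
      _ = b ^ 2 := by rw [hab]; ring
  linear_combination (b ^ 4) * h + (-Q' ^ 2) * e1 + (-8 * UG * R') * e2
    + (-10 * UG ^ 2 * Q') * e3

theorem case_two_core (p : ℕ) [Fact p.Prime]
    (hσ : ∀ k : ℕ, (12 : ℤ) ∣ (ArithmeticFunction.sigma 5 k : ℤ) - ArithmeticFunction.sigma 3 k)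
    (hΔex : ∃ D : PowerSeries ℤ, 1728 * D = E4Z ^ 3 - E6Z ^ 2 ∧ coeff 0 D = 0 ∧ coeff 1 D = 1)
    (hEng : ∀ (v N : ℕ) (X X' ζ : PowerSeries ℤ),
      IsLevelOne ((2 ^ v : ℕ) * ((8 : ℕ) : ℤ))
        (toC ((p : PowerSeries ℤ) ^ N * X ^ (2 ^ v) + C 1 * psU p (X' ^ (2 ^ v)))) →
      (((2 : ℕ) : ℤ) : PowerSeries ℤ) ∣ X - ζ → (((2 : ℕ) : ℤ) : PowerSeries ℤ) ∣ X' - psV p ζ →
      ((2 : ℕ) : ℤ) ^ v ∣ (p : ℤ) ^ N + 1 → ¬ ((2 : ℕ) : ℤ) ^ (v + 1) ∣ (p : ℤ) ^ N + 1 →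
      coeff 0 ζ = 0 → ¬ ((2 : ℕ) : ℤ) ∣ coeff 1 ζ → False)
    (hP : PairCalc p) (hL : LevelOneCalc) (hp : 5 ≤ p)
    (h8 : 8 ∣ p + 1) (f : CuspForm (Gamma0 p) 2) (φ₀ : PowerSeries ℤ)
    (hf : qExpansion 1 f = toC (deltaZ p + C 2 * φ₀)) : False := by
  obtain ⟨u, hu⟩ := h8
  have hp0 : p ≠ 0 := (Fact.out : p.Prime).ne_zero
  have hpC : (p : ℂ) ≠ 0 := by exact_mod_cast hp0
  have hpZ : (p : ℤ) = 8 * (u : ℤ) - 1 := by
    have : ((p + 1 : ℕ) : ℤ) = ((8 * u : ℕ) : ℤ) := by rw [hu]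
    push_cast at this
    linarith
  obtain ⟨U, hU⟩ : ∃ U : PowerSeries ℤ, U = C (u : ℤ) := ⟨_, rfl⟩
  have hCp : (C (p : ℤ) : PowerSeries ℤ) = 8 * U - 1 := by
    rw [hpZ, hU]; simp
  obtain ⟨Δ, hΔ, hΔ0, hΔ1⟩ := hΔex
  obtain ⟨W, hW⟩ := exists_W hσ
  -- the two components
  obtain ⟨x, hx⟩ : ∃ x : PowerSeries ℤ, x = (2 * U ^ 2 - U) - 3 * (4 * U - 1) * φ₀ := ⟨_, rfl⟩
  obtain ⟨y, hy⟩ : ∃ y : PowerSeries ℤ, y = (2 * U ^ 2 - U) - 3 * (4 * U - 1) * psU p φ₀ :=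
    ⟨_, rfl⟩
  obtain ⟨X, hX1, hX2⟩ := first_comp hΔ hW x
  have hVΔ : 1728 * psV p Δ = psV p E4Z ^ 3 - psV p E6Z ^ 2 := by
    have := congrArg (VH p) hΔ
    simpa only [map_mul, map_sub, map_pow, map_ofNat, VH_apply] using this
  have hVW : 4 * psV p W = 63 * psV p (sigZ 5) + 45 * psV p (sigZ 3) := by
    have := congrArg (VH p) hW
    simpa only [map_mul, map_add, map_ofNat, VH_apply] using this
  have hVQ : psV p E4Z = 1 + 240 * psV p (sigZ 3) := by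
    have : VH p E4Z = VH p (1 + 240 * sigZ 3) := rfl
    simpa only [map_mul, map_add, map_one, map_ofNat, VH_apply] using this
  have hVR : psV p E6Z = 1 - 504 * psV p (sigZ 5) := by
    have : VH p E6Z = VH p (1 - 504 * sigZ 5) := rfl
    simpa only [map_mul, map_sub, map_one, map_ofNat, VH_apply] using this
  obtain ⟨X', hX'1, hX'2⟩ := second_comp hVΔ hVW hVQ hVR y (-U)
  -- the pair `(g, g♯)`
  have hD := isPair_D p hP f 2 φ₀ hf
  have hg1 : (((4 * u - 1 : ℤ) : ℂ) / ((2 : ℤ) : ℂ)) •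
      toC (C ((p : ℤ) - 1) - C (24 * 2) * φ₀) = toC (1 + 8 * x) := by
    refine smul_toC_eq two_ne_zero ?_
    simp only [map_sub, map_mul, map_ofNat, map_one, hCp, ← hU, hx]
    ring
  have hg2 : (((4 * u - 1 : ℤ) : ℂ) / ((2 : ℤ) : ℂ)) •
      toC (C ((p : ℤ) - 1) - C (24 * 2) * psU p φ₀) = toC (1 + 8 * y) := by
    refine smul_toC_eq two_ne_zero ?_
    simp only [map_sub, map_mul, map_ofNat, map_one, hCp, ← hU, hy]
    ring
  have hG : IsPair p 2 (toC (1 + 8 * x)) ((-(p : ℂ)⁻¹) • toC (1 + 8 * y)) := by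
    have := hP.smul (((4 * u - 1 : ℤ) : ℂ) / ((2 : ℤ) : ℂ)) hD
    rwa [hg1, smul_comm, hg2] at this
  have hQ : IsPair p 4 (toC E4Z) (toC (psV p E4Z)) := by
    have := hP.ofLevelOne hL.E4
    rwa [← map_psV] at this
  have hR : IsPair p 6 (toC E6Z) (toC (psV p E6Z)) := by
    have := hP.ofLevelOne hL.E6
    rwa [← map_psV] at this
  have hZ := pair_Z hP hG hQ hR
  have hZA : toC E4Z ^ 2 - 8 * toC (1 + 8 * x) * toC E6Z + 10 * toC (1 + 8 * x) ^ 2 * toC E4Z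
      - 3 * toC (1 + 8 * x) ^ 4 = (256 : ℂ) • toC X := by
    have := congrArg toC hX1
    rw [smul_eq_C_mul, map_ofNat]
    simpa only [map_sub, map_add, map_mul, map_pow, map_ofNat] using this
  have hs : (1 + 8 * (-U) : PowerSeries ℤ) = -C (p : ℤ) := by rw [hCp]; ring
  have hZB : toC (psV p E4Z) ^ 2 - 8 * ((-(p : ℂ)⁻¹) • toC (1 + 8 * y)) * toC (psV p E6Z)
      + 10 * ((-(p : ℂ)⁻¹) • toC (1 + 8 * y)) ^ 2 * toC (psV p E4Z)
      - 3 * ((-(p : ℂ)⁻¹) • toC (1 + 8 * y)) ^ 4 = (256 / (p : ℂ) ^ 4) • toC X' := by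
    refine second_scale hpC ?_
    rw [hs] at hX'1
    have := congrArg toC hX'1
    have hC : toC (C (p : ℤ)) = C (p : ℂ) := by simp [toC]
    simpa only [map_sub, map_add, map_mul, map_pow, map_ofNat, map_neg, hC] using this
  rw [hZA, hZB] at hZ
  -- the exponent
  obtain ⟨v, m, hm, hvm⟩ := Nat.exists_eq_two_pow_mul_odd (n := p + 1) (by omega)
  have hv1 : (2 : ℤ) ^ v ∣ (p : ℤ) + 1 := ⟨m, by exact_mod_cast hvm⟩
  have hv2 : ¬ (2 : ℤ) ^ (v + 1) ∣ (p : ℤ) + 1 := by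
    intro h
    have h' : 2 ^ (v + 1) ∣ p + 1 := by exact_mod_cast h
    rw [hvm, pow_succ] at h'
    have := Nat.dvd_of_mul_dvd_mul_left (by positivity) h'
    exact (Nat.not_even_iff_odd.mpr hm) (even_iff_two_dvd.mpr this)
  obtain ⟨hκ1, hκ2⟩ := val_two p v hv1 hv2
  have hN : 4 * 2 ^ v - 1 + 1 = 4 * 2 ^ v :=
    Nat.sub_add_cancel (Nat.succ_le_of_lt (by positivity))
  have hlev := levelOne_of_pair p hP hL hZ (by norm_num) (2 ^ v) (4 * 2 ^ v - 1) 1 (by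
    rw [hN, div_pow, ← pow_mul, Int.cast_one, one_mul]
    exact mul_div_cancel₀ _ (pow_ne_zero _ hpC))
  refine hEng v (4 * 2 ^ v - 1) X X' Δ (by exact_mod_cast hlev)
    (by exact_mod_cast hX2) (by exact_mod_cast hX'2) (by exact_mod_cast hκ1)
    (by exact_mod_cast hκ2) hΔ0 (by rw [hΔ1]; norm_num)

end CaseTwo

end Fermat.Agent.S16

end
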