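import Fermat.Agent.S16.SigmaP
import Fermat.Agent.S16.UB.Engine
import Fermat.Agent.S16.UB.Case2Core

/-!
# S16, upper bound: the case `ℓ = 2`, `p ≡ 7 mod 8`.   Owner helper190.
-/

set_option autoImplicit false

noncomputable section

namespace Fermat.Agent.S16

open UpperHalfPlane ModularForm CongruenceSubgroup PowerSeries
open scoped MatrixGroups ModularForm Manifold

theorem case_two (p : ℕ) [Fact p.Prime] (hP : PairCalc p) (hL : LevelOneCalc) (hp : 5 ≤ p)
    (h8 : 8 ∣ p + 1) (f : CuspForm (Gamma0 p) 2) (φ₀ : PowerSeries ℤ)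
    (hf : qExpansion 1 f = toC (deltaZ p + C 2 * φ₀)) : False :=
  CaseTwo.case_two_core p sigma_three_five exists_deltaSeries
    (fun v N X X' ζ h1 h2 h3 h4 h5 h6 h7 =>
      engine p hL 2 v 8 N (by norm_num) 1 X X' ζ h1 h2 h3 h4 h5 h6 h7)
    hP hL hp h8 f φ₀ hf

end Fermat.Agent.S16

end
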